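import Fermat.Agent.DS.FrobLevel
import Fermat.Agent.DS.PrimeSums
import Fermat.Agent.Density.Moebius

/-!
# Frobenius density with bounded error at a finite Galois level

For a function `f` on `Gal(L/ℚ)` constant on generators of cyclic subgroups,
`∑_p (∑_y f (y σ_p y⁻¹)) p ^ (-s) = (∑ f) log (1 / (s - 1)) + O(1)`.
-/

set_option autoImplicit false

noncomputable section

namespace Fermat.Agent.LT.Density

open NumberField Fermat.Agent.Density
open scoped Classical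

/-- Class functions taking equal values on the generators of a cyclic subgroup. -/
structure IsRationalClassFun {G : Type*} [Group G] (f : G → ℝ) : Prop where
  conj : ∀ x y : G, f (y * x * y⁻¹) = f x
  gen : ∀ x y : G, Subgroup.zpowers x = Subgroup.zpowers y → f x = f y

namespace IsRationalClassFun

variable {G : Type*} [Group G] {f g : G → ℝ}

theorem const (c : ℝ) : IsRationalClassFun fun _ : G ↦ c := ⟨fun _ _ ↦ rfl, fun _ _ _ ↦ rfl⟩

theorem add (hf : IsRationalClassFun f) (hg : IsRationalClassFun g) :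
    IsRationalClassFun fun x ↦ f x + g x :=
  ⟨fun x y ↦ by rw [hf.conj, hg.conj], fun x y h ↦ by rw [hf.gen x y h, hg.gen x y h]⟩

theorem mul (hf : IsRationalClassFun f) (hg : IsRationalClassFun g) :
    IsRationalClassFun fun x ↦ f x * g x :=
  ⟨fun x y ↦ by rw [hf.conj, hg.conj], fun x y h ↦ by rw [hf.gen x y h, hg.gen x y h]⟩

theorem comp {G' : Type*} [Group G'] (hf : IsRationalClassFun f) (π : G' →* G) :
    IsRationalClassFun fun x ↦ f (π x) :=
  ⟨fun x y ↦ by rw [map_mul, map_mul, map_inv, hf.conj],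
    fun x y h ↦ hf.gen _ _ (by rw [← MonoidHom.map_zpowers, h, MonoidHom.map_zpowers])⟩

theorem indicator (U : Subgroup G) [hU : U.Normal] :
    IsRationalClassFun fun x ↦ if x ∈ U then (1 : ℝ) else 0 := by
  refine ⟨fun x y ↦ if_congr ⟨fun h ↦ ?_, fun h ↦ hU.conj_mem x h y⟩ rfl rfl,
    fun x y h ↦ if_congr ?_ rfl rfl⟩
  · simpa [mul_assoc] using hU.conj_mem _ h y⁻¹
  · rw [← Subgroup.zpowers_le, h, Subgroup.zpowers_le]

/-- It suffices to check invariance under powers prime to the order. -/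
theorem of_pow [Finite G] (hconj : ∀ x y : G, f (y * x * y⁻¹) = f x)
    (hpow : ∀ (x : G) (k : ℕ), k.Coprime (orderOf x) → f (x ^ k) = f x) :
    IsRationalClassFun f := by
  refine ⟨hconj, fun x y h ↦ ?_⟩
  obtain ⟨k, hk⟩ := mem_powers_iff_mem_zpowers.mpr (h ▸ Subgroup.mem_zpowers y : y ∈ Subgroup.zpowers x)
  have hk : x ^ k = y := hk
  have hord : orderOf y = orderOf x := by rw [← Nat.card_zpowers, ← Nat.card_zpowers, h]
  rw [← hk, hpow x k]
  rw [← hk, orderOf_pow] at hord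
  exact Nat.Coprime.symm ((Nat.div_eq_self.mp hord).resolve_left (orderOf_pos x).ne')

end IsRationalClassFun

section Level

variable (L : Type*) [Field L] [NumberField L] [IsGalois ℚ L]

/-- A chosen Frobenius element at each prime. -/
def levelFrob (p : Nat.Primes) : L ≃ₐ[ℚ] L :=
  (exists_isFrobAt (L := L) p.2).choose_spec.choose

theorem exists_isFrobAt_levelFrob (p : Nat.Primes) :
    ∃ Q : Ideal (𝓞 L), IsFrobAt Q (levelFrob L p) p :=
  ⟨_, (exists_isFrobAt (L := L) p.2).choose_spec.choose_spec⟩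

variable {L}

/-- The sum over all conjugates. -/
def conjSum (f : (L ≃ₐ[ℚ] L) → ℝ) (σ : L ≃ₐ[ℚ] L) : ℝ := ∑ y : L ≃ₐ[ℚ] L, f (y * σ * y⁻¹)

/-- The symmetrised prime series of `f` is `(∑ f) log (1 / (s - 1)) + O(1)`. -/
def HasLogMean (f : (L ≃ₐ[ℚ] L) → ℝ) : Prop :=
  ∃ C : ℝ, ∀ s : ℝ, 1 < s → s ≤ 2 →
    |(∑' p : Nat.Primes, conjSum f (levelFrob L p) * ((p : ℕ) : ℝ) ^ (-s)) -
      (∑ x, f x) * Real.log (1 / (s - 1))| ≤ C

theorem summable_mul_rpow {a : Nat.Primes → ℝ} {B : ℝ} (hB : ∀ p, |a p| ≤ B) {s : ℝ} (hs : 1 < s) :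
    Summable fun p : Nat.Primes ↦ a p * ((p : ℕ) : ℝ) ^ (-s) := by
  refine Summable.of_norm_bounded
    (((Real.summable_nat_rpow.2 (by linarith : -s < -1)).comp_injective
      (Subtype.val_injective (p := Nat.Prime))).mul_left B) fun p ↦ ?_
  rw [norm_mul, Real.norm_eq_abs, Real.norm_of_nonneg (Real.rpow_nonneg (Nat.cast_nonneg _) _)]
  exact mul_le_mul_of_nonneg_right (hB p) (Real.rpow_nonneg (Nat.cast_nonneg _) _)

theorem abs_conjSum_le (f : (L ≃ₐ[ℚ] L) → ℝ) (σ : L ≃ₐ[ℚ] L) :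
    |conjSum f σ| ≤ Fintype.card (L ≃ₐ[ℚ] L) * ∑ x, |f x| := by
  refine (Finset.abs_sum_le_sum_abs _ _).trans ?_
  rw [← nsmul_eq_mul, ← Finset.card_univ, ← Finset.sum_const]
  exact Finset.sum_le_sum fun y _ ↦
    Finset.single_le_sum (f := fun x ↦ |f x|) (fun x _ ↦ abs_nonneg _) (Finset.mem_univ _)

theorem summable_conjSum (f : (L ≃ₐ[ℚ] L) → ℝ) {s : ℝ} (hs : 1 < s) :
    Summable fun p : Nat.Primes ↦ conjSum f (levelFrob L p) * ((p : ℕ) : ℝ) ^ (-s) :=
  summable_mul_rpow (fun _ ↦ abs_conjSum_le f _) hs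

theorem HasLogMean.sum {ι : Type*} (I : Finset ι) (c : ι → ℝ) (f : ι → (L ≃ₐ[ℚ] L) → ℝ)
    (h : ∀ i ∈ I, HasLogMean (f i)) : HasLogMean fun x ↦ ∑ i ∈ I, c i * f i x := by
  choose! C hC using h
  refine ⟨∑ i ∈ I, |c i| * C i, fun s hs hs2 ↦ ?_⟩
  have h1 : ∀ p : Nat.Primes, conjSum (fun x ↦ ∑ i ∈ I, c i * f i x) (levelFrob L p) *
      ((p : ℕ) : ℝ) ^ (-s) =
      ∑ i ∈ I, c i * (conjSum (f i) (levelFrob L p) * ((p : ℕ) : ℝ) ^ (-s)) := fun p ↦ by
    rw [conjSum, Finset.sum_comm, Finset.sum_mul]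
    refine Finset.sum_congr rfl fun i _ ↦ ?_
    rw [conjSum, ← Finset.mul_sum]
    ring
  rw [tsum_congr h1, Summable.tsum_finsetSum fun i _ ↦ (summable_conjSum (f i) hs).mul_left (c i),
    Finset.sum_comm, Finset.sum_mul, ← Finset.sum_sub_distrib]
  refine (Finset.abs_sum_le_sum_abs _ _).trans (Finset.sum_le_sum fun i hi ↦ ?_)
  rw [tsum_mul_left, ← Finset.mul_sum, mul_assoc, ← mul_sub, abs_mul]
  exact mul_le_mul_of_nonneg_left (hC i hi s hs hs2) (abs_nonneg _)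

theorem hasLogMean_subgroup (H : Subgroup (L ≃ₐ[ℚ] L)) :
    HasLogMean fun x ↦ if x ∈ H then (1 : ℝ) else 0 := by
  set K : IntermediateField ℚ L := IntermediateField.fixedField H
  obtain ⟨B, hB⟩ := DS.exists_primeSumOne_bound K
  set f : (L ≃ₐ[ℚ] L) → ℝ := fun x ↦ if x ∈ H then (1 : ℝ) else 0 with hf
  set e : Nat.Primes → ℝ := fun p ↦
    conjSum f (levelFrob L p) - Nat.card H * (idealCount K p : ℝ) with he
  have hcard : ∀ P : (L ≃ₐ[ℚ] L) → Prop,
      (∑ x, if P x then (1 : ℝ) else 0) = Nat.card {x // P x} := fun P ↦ by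
    rw [Finset.sum_boole, Nat.card_eq_fintype_card, Fintype.card_subtype]
  set U : Finset Nat.Primes := (finite_not_separated L).toFinset.subtype Nat.Prime
  have he0 : ∀ p : Nat.Primes, p ∉ U → e p = 0 := fun p hp ↦ by
    have hsep : Separated L (p : ℕ) := by
      by_contra h
      exact hp (Finset.mem_subtype.2 ((Set.Finite.mem_toFinset _).2 ⟨p.2, h⟩))
    obtain ⟨Q, hQ⟩ := exists_isFrobAt_levelFrob L p
    have h := congrArg (fun n : ℕ ↦ (n : ℝ)) (idealCount_fixedField_mul p.2 hsep H hQ)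
    simp only [he, conjSum, hf, hcard]
    push_cast at h
    rw [← h]
    ring
  refine ⟨Nat.card H * B + ∑ p ∈ U, |e p|, fun s hs hs2 ↦ ?_⟩
  have hsum : (∑ x, f x) = Nat.card H := hcard fun x ↦ x ∈ H
  have hS := summable_conjSum f hs
  have hZ := (DS.summable_primes_zetaTerm (K := K) hs).mul_left (Nat.card H : ℝ)
  have hdiff : (∑' p : Nat.Primes, conjSum f (levelFrob L p) * ((p : ℕ) : ℝ) ^ (-s)) -
      Nat.card H * DS.primeSumOne K s = ∑ p ∈ U, e p * ((p : ℕ) : ℝ) ^ (-s) := by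
    rw [DS.primeSumOne, ← tsum_mul_left, ← hS.tsum_sub hZ, tsum_eq_sum (s := U) fun p hp ↦ ?_]
    · exact Finset.sum_congr rfl fun p _ ↦ by simp only [he, zetaTerm]; ring
    · have := he0 p hp
      simp only [he] at this
      simp only [zetaTerm]
      linear_combination ((p : ℕ) : ℝ) ^ (-s) * this
  rw [hsum, show (∑' p : Nat.Primes, conjSum f (levelFrob L p) * ((p : ℕ) : ℝ) ^ (-s)) -
      (Nat.card H : ℝ) * Real.log (1 / (s - 1)) =
      (Nat.card H : ℝ) * (DS.primeSumOne K s - Real.log (1 / (s - 1))) +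
        ∑ p ∈ U, e p * ((p : ℕ) : ℝ) ^ (-s) by rw [← hdiff]; ring]
  refine (abs_add_le _ _).trans (add_le_add ?_ ?_)
  · rw [abs_mul, Nat.abs_cast]
    exact mul_le_mul_of_nonneg_left (hB s hs hs2) (Nat.cast_nonneg _)
  · refine (Finset.abs_sum_le_sum_abs _ _).trans (Finset.sum_le_sum fun p _ ↦ ?_)
    rw [abs_mul, abs_of_nonneg (Real.rpow_nonneg (Nat.cast_nonneg _) _)]
    exact mul_le_of_le_one_right (abs_nonneg _)
      (Real.rpow_le_one_of_one_le_of_nonpos (Nat.one_le_cast.2 p.2.one_le) (by linarith))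

theorem hasLogMean_gen (g : L ≃ₐ[ℚ] L) :
    HasLogMean fun x ↦ if Subgroup.zpowers x = Subgroup.zpowers g then (1 : ℝ) else 0 := by
  have h : (fun x ↦ if Subgroup.zpowers x = Subgroup.zpowers g then (1 : ℝ) else 0) = fun x ↦
      ∑ d ∈ (orderOf g).divisors, ((ArithmeticFunction.moebius d : ℤ) : ℝ) *
        (if x ∈ Subgroup.zpowers (g ^ d) then (1 : ℝ) else 0) := by
    funext x
    have h := congrArg (fun n : ℤ ↦ (n : ℝ)) (sum_moebius_mem_zpowers g x)
    simp only [Int.cast_sum, Int.cast_mul] at h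
    simpa [apply_ite (fun n : ℤ ↦ (n : ℝ))] using h.symm
  rw [h]
  exact HasLogMean.sum _ _ _ fun d _ ↦ hasLogMean_subgroup _

theorem hasLogMean_of_gen (f : (L ≃ₐ[ℚ] L) → ℝ)
    (hf : ∀ x y, Subgroup.zpowers x = Subgroup.zpowers y → f x = f y) : HasLogMean f := by
  have h : f = fun x ↦ ∑ c, (f c / Nat.card {y : L ≃ₐ[ℚ] L // Subgroup.zpowers y = Subgroup.zpowers c}) *
      (if Subgroup.zpowers x = Subgroup.zpowers c then (1 : ℝ) else 0) := by
    funext x
    simp only [mul_ite, mul_one, mul_zero]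
    rw [← Finset.sum_filter, Finset.sum_congr rfl (fun c hc ↦ by
        rw [hf c x (Finset.mem_filter.1 hc).2.symm, (Finset.mem_filter.1 hc).2.symm]),
      Finset.sum_const, nsmul_eq_mul, Nat.card_eq_fintype_card, Fintype.card_subtype]
    rw [show (Finset.univ.filter fun c : L ≃ₐ[ℚ] L ↦ Subgroup.zpowers x = Subgroup.zpowers c) =
      Finset.univ.filter fun c ↦ Subgroup.zpowers c = Subgroup.zpowers x from
      Finset.filter_congr fun c _ ↦ eq_comm]
    rw [mul_div_cancel₀]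
    exact Nat.cast_ne_zero.2 (Finset.card_ne_zero.2 ⟨x, Finset.mem_filter.2 ⟨Finset.mem_univ _, rfl⟩⟩)
  rw [h]
  exact HasLogMean.sum _ _ _ fun c _ ↦ hasLogMean_gen c

/-- `∑_p f(σ_p) p ^ (-s) = (mean f) log (1 / (s - 1)) + O(1)` at a finite Galois level. -/
theorem exists_abs_levelSum_sub_le {f : (L ≃ₐ[ℚ] L) → ℝ} (hf : IsRationalClassFun f) :
    ∃ C : ℝ, ∀ s : ℝ, 1 < s → s ≤ 2 →
      |(∑' p : Nat.Primes, f (levelFrob L p) * ((p : ℕ) : ℝ) ^ (-s)) -
        (∑ x, f x) / Nat.card (L ≃ₐ[ℚ] L) * Real.log (1 / (s - 1))| ≤ C := by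
  obtain ⟨C, hC⟩ := hasLogMean_of_gen f hf.gen
  have hn : (0 : ℝ) < Nat.card (L ≃ₐ[ℚ] L) := Nat.cast_pos.2 Nat.card_pos
  refine ⟨C / Nat.card (L ≃ₐ[ℚ] L), fun s hs hs2 ↦ ?_⟩
  have h := hC s hs hs2
  have hc : ∀ σ, conjSum f σ = Nat.card (L ≃ₐ[ℚ] L) * f σ := fun σ ↦ by
    simp only [conjSum, hf.conj, Finset.sum_const, Finset.card_univ, nsmul_eq_mul,
      Nat.card_eq_fintype_card]
  simp only [hc, mul_assoc, tsum_mul_left] at h
  rw [le_div_iff₀ hn, ← abs_of_pos hn, ← abs_mul, abs_of_pos hn]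
  refine le_of_eq_of_le (congrArg abs ?_) h
  field_simp

end Level

end Fermat.Agent.LT.Density
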