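import Fermat.Agent.LT.Data.Lift
import Fermat.Agent.LT.Density.Level
import Mathlib.LinearAlgebra.Matrix.GeneralLinearGroup.Basic

/-!
# The class functions of the octahedral lift used by the LT route

`octNorm g = |tr θ g|²` and `octSym g = (tr θ g)² - det θ g + 1` are rational class functions
with mean one on `GL₂(𝔽₃)`; the former also has mean one on `SL₂(𝔽₃)`.
-/

set_option autoImplicit false

noncomputable section

namespace Fermat.Agent.LT.Density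

open Matrix
open scoped MatrixGroups

instance factPrimeThree_ltDensity : Fact (Nat.Prime 3) := ⟨Nat.prime_three⟩

/-- The scalar elements `±1` of `GL₂(𝔽₃)`. -/
def IsPlusMinusOne (x : GL (Fin 2) (ZMod 3)) : Prop := x = 1 ∨ x = -1

/-- The entry version of `|tr θ|²`. -/
def normVal (a b c d : ZMod 3) : ℤ :=
  if b = 0 ∧ c = 0 ∧ a = d then 4
  else if b * (a + d) = 0 ∧ c * (a + d) = 0 ∧ a * a = d * d then 0
  else if a * d - b * c = 1 then 1 else 2

/-- The entry version of the sign of the determinant. -/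
def signVal (a b c d : ZMod 3) : ℤ := if a * d - b * c = 1 then 1 else -1

theorem liftQuad_trace_det : ∀ a b c d : ZMod 3, a * d - b * c ≠ 0 →
    ((liftQuad a b c d).e00 + (liftQuad a b c d).e11).norm = normVal a b c d ∧
    ((liftQuad a b c d).e00 + (liftQuad a b c d).e11) *
        ((liftQuad a b c d).e00 + (liftQuad a b c d).e11) =
      ((signVal a b c d * normVal a b c d : ℤ) : ℤ√(-2)) ∧
    (liftQuad a b c d).e00 * (liftQuad a b c d).e11 -
        (liftQuad a b c d).e01 * (liftQuad a b c d).e10 = ((signVal a b c d : ℤ) : ℤ√(-2)) := by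
  decide +kernel

theorem isPlusMinusOne_iff (x : GL (Fin 2) (ZMod 3)) :
    IsPlusMinusOne x ↔ x 0 1 = 0 ∧ x 1 0 = 0 ∧ x 0 0 = x 1 1 := by
  have key : ∀ a b c d : ZMod 3, a * d - b * c ≠ 0 →
      (((a = 1 ∧ b = 0) ∧ c = 0 ∧ d = 1) ∨ ((a = -1 ∧ b = 0) ∧ c = 0 ∧ d = -1) ↔
        b = 0 ∧ c = 0 ∧ a = d) := by
    decide +kernel
  have hext : ∀ y : GL (Fin 2) (ZMod 3), x = y ↔
      (x 0 0 = y 0 0 ∧ x 0 1 = y 0 1) ∧ x 1 0 = y 1 0 ∧ x 1 1 = y 1 1 := fun y ↦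
    ⟨fun h ↦ h ▸ ⟨⟨rfl, rfl⟩, rfl, rfl⟩, fun h ↦ Units.ext (by
      rw [Matrix.eta_fin_two (x : Matrix (Fin 2) (Fin 2) (ZMod 3)),
        Matrix.eta_fin_two (y : Matrix (Fin 2) (Fin 2) (ZMod 3)), h.1.1, h.1.2, h.2.1, h.2.2])⟩
  refine Iff.trans ?_ (key _ _ _ _ (det_entries_ne_zero x))
  rw [IsPlusMinusOne, hext 1, hext (-1)]
  simp only [Units.val_neg, Units.val_one, Matrix.neg_apply, Matrix.one_apply_eq,
    Matrix.one_apply_ne (show (0 : Fin 2) ≠ 1 by decide),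
    Matrix.one_apply_ne (show (1 : Fin 2) ≠ 0 by decide), neg_zero]

/-- `|tr θ|²` in terms of data depending only on the cyclic subgroup. -/
def octNormInt (x : GL (Fin 2) (ZMod 3)) : ℤ := normVal (x 0 0) (x 0 1) (x 1 0) (x 1 1)

/-- The sign of `det θ`. -/
def octSign (x : GL (Fin 2) (ZMod 3)) : ℤ := signVal (x 0 0) (x 0 1) (x 1 0) (x 1 1)

theorem det_eq_one_iff (x : GL (Fin 2) (ZMod 3)) :
    x 0 0 * x 1 1 - x 0 1 * x 1 0 = 1 ↔ Matrix.GeneralLinearGroup.det x = 1 := by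
  rw [Units.ext_iff, Matrix.GeneralLinearGroup.val_det_apply, Matrix.det_fin_two, Units.val_one]

theorem isPlusMinusOne_sq_iff (x : GL (Fin 2) (ZMod 3)) :
    IsPlusMinusOne (x * x) ↔
      x 0 1 * (x 0 0 + x 1 1) = 0 ∧ x 1 0 * (x 0 0 + x 1 1) = 0 ∧
        x 0 0 * x 0 0 = x 1 1 * x 1 1 := by
  rw [isPlusMinusOne_iff]
  simp only [Units.val_mul, Matrix.mul_apply, Fin.sum_univ_two]
  refine and_congr ⟨fun h ↦ ?_, fun h ↦ ?_⟩ (and_congr ⟨fun h ↦ ?_, fun h ↦ ?_⟩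
    ⟨fun h ↦ ?_, fun h ↦ ?_⟩) <;> linear_combination h

theorem octNormInt_eq (x : GL (Fin 2) (ZMod 3)) [Decidable (IsPlusMinusOne x)]
    [Decidable (IsPlusMinusOne (x * x))] :
    octNormInt x = if IsPlusMinusOne x then 4 else if IsPlusMinusOne (x * x) then 0
      else if Matrix.GeneralLinearGroup.det x = 1 then 1 else 2 := by
  simp only [octNormInt, normVal, isPlusMinusOne_iff x, isPlusMinusOne_sq_iff x, det_eq_one_iff x]

theorem isPlusMinusOne_pow {x : GL (Fin 2) (ZMod 3)} (h : IsPlusMinusOne x) (k : ℕ) :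
    IsPlusMinusOne (x ^ k) := by
  rcases h with rfl | rfl
  · exact Or.inl (one_pow k)
  · exact neg_one_pow_eq_or _ k

theorem isPlusMinusOne_conj_iff (x y : GL (Fin 2) (ZMod 3)) :
    IsPlusMinusOne (y * x * y⁻¹) ↔ IsPlusMinusOne x := by
  have h : ∀ c : GL (Fin 2) (ZMod 3), (∀ z, z * c = c * z) →
      (y * x * y⁻¹ = c ↔ x = c) := fun c hc ↦ by
    rw [mul_inv_eq_iff_eq_mul, ← hc y, mul_right_inj]
  exact or_congr (h 1 fun z ↦ by rw [mul_one, one_mul])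
    (h (-1) fun z ↦ by rw [mul_neg, neg_mul, mul_one, one_mul])

theorem isPlusMinusOne_congr {x y : GL (Fin 2) (ZMod 3)}
    (h : Subgroup.zpowers x = Subgroup.zpowers y) :
    (IsPlusMinusOne x ↔ IsPlusMinusOne y) ∧ (IsPlusMinusOne (x * x) ↔ IsPlusMinusOne (y * y)) ∧
      (Matrix.GeneralLinearGroup.det x = 1 ↔ Matrix.GeneralLinearGroup.det y = 1) := by
  have key : ∀ u v : GL (Fin 2) (ZMod 3), u ∈ Subgroup.zpowers v →
      (IsPlusMinusOne v → IsPlusMinusOne u) ∧ (IsPlusMinusOne (v * v) → IsPlusMinusOne (u * u)) ∧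
        (Matrix.GeneralLinearGroup.det v = 1 → Matrix.GeneralLinearGroup.det u = 1) := by
    intro u v huv
    obtain ⟨k, hk⟩ := mem_powers_iff_mem_zpowers.mpr huv
    have hk : v ^ k = u := hk
    subst hk
    refine ⟨fun hv ↦ isPlusMinusOne_pow hv k, fun hv ↦ ?_, fun hv ↦ by rw [map_pow, hv, one_pow]⟩
    rw [← (Commute.refl v).mul_pow]
    exact isPlusMinusOne_pow hv k
  obtain ⟨a1, a2, a3⟩ := key x y (h ▸ Subgroup.mem_zpowers x)
  obtain ⟨b1, b2, b3⟩ := key y x (h ▸ Subgroup.mem_zpowers y)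
  exact ⟨⟨b1, a1⟩, ⟨b2, a2⟩, ⟨b3, a3⟩⟩

theorem octNormInt_gen {x y : GL (Fin 2) (ZMod 3)}
    (h : Subgroup.zpowers x = Subgroup.zpowers y) :
    octNormInt x = octNormInt y ∧ octSign x = octSign y := by
  classical
  obtain ⟨h1, h2, h3⟩ := isPlusMinusOne_congr h
  refine ⟨by simp only [octNormInt_eq, h1, h2, h3], ?_⟩
  simp only [octSign, signVal, det_eq_one_iff, h3]

theorem octNormInt_conj (x y : GL (Fin 2) (ZMod 3)) :
    octNormInt (y * x * y⁻¹) = octNormInt x ∧ octSign (y * x * y⁻¹) = octSign x := by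
  classical
  have h2 : y * x * y⁻¹ * (y * x * y⁻¹) = y * (x * x) * y⁻¹ := by group
  have h3 : Matrix.GeneralLinearGroup.det (y * x * y⁻¹) = Matrix.GeneralLinearGroup.det x := by
    rw [map_mul, map_mul, map_inv, mul_inv_cancel_comm]
  refine ⟨by simp only [octNormInt_eq, h2, h3, isPlusMinusOne_conj_iff], ?_⟩
  simp only [octSign, signVal, det_eq_one_iff, h3]

/-- `|tr θ|²`. -/
def octNorm (x : GL (Fin 2) (ZMod 3)) : ℝ := (octNormInt x : ℝ)

/-- `tr (Sym² θ ⊕ 1) = (tr θ)² - det θ + 1`. -/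
def octSym (x : GL (Fin 2) (ZMod 3)) : ℝ :=
  ((octSign x * octNormInt x - octSign x + 1 : ℤ) : ℝ)

theorem isRationalClassFun_octNorm : IsRationalClassFun octNorm :=
  ⟨fun x y ↦ by rw [octNorm, (octNormInt_conj x y).1, octNorm],
    fun x y h ↦ by rw [octNorm, (octNormInt_gen h).1, octNorm]⟩

theorem isRationalClassFun_octSym : IsRationalClassFun octSym :=
  ⟨fun x y ↦ by rw [octSym, (octNormInt_conj x y).1, (octNormInt_conj x y).2, octSym],
    fun x y h ↦ by rw [octSym, (octNormInt_gen h).1, (octNormInt_gen h).2, octSym]⟩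

theorem octRep_trace_det (x : GL (Fin 2) (ZMod 3)) :
    Complex.normSq ((octRep x : GL (Fin 2) ℂ) : Matrix (Fin 2) (Fin 2) ℂ).trace = octNorm x ∧
    ((octRep x : GL (Fin 2) ℂ) : Matrix (Fin 2) (Fin 2) ℂ).trace ^ 2 =
      ((octSign x * octNormInt x : ℤ) : ℂ) ∧
    ((octRep x : GL (Fin 2) ℂ) : Matrix (Fin 2) (Fin 2) ℂ).det = (octSign x : ℂ) := by
  obtain ⟨h1, h2, h3⟩ := liftQuad_trace_det _ _ _ _ (det_entries_ne_zero x)
  set q := Fermat.Agent.LT.liftQuad (x 0 0) (x 0 1) (x 1 0) (x 1 1)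
  have hmat : ∀ i j, ((octRep x : GL (Fin 2) ℂ) : Matrix (Fin 2) (Fin 2) ℂ) i j =
      sqrtNegTwoC (q.toMat i j) := fun i j ↦ rfl
  have htr : ((octRep x : GL (Fin 2) ℂ) : Matrix (Fin 2) (Fin 2) ℂ).trace =
      sqrtNegTwoC (q.e00 + q.e11) := by
    simp [Matrix.trace_fin_two, hmat, Quad.toMat]
  refine ⟨?_, ?_, ?_⟩
  · rw [htr, octNorm, show octNormInt x = _ from h1.symm]
    set z := q.e00 + q.e11
    have hz : sqrtNegTwoC z = (z.re : ℂ) + (z.im : ℂ) * ((Real.sqrt 2 : ℂ) * Complex.I) :=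
      Zsqrtd.lift_apply_apply _ z
    rw [hz, Complex.normSq_apply, Zsqrtd.norm_def]
    simp
    ring_nf
    rw [Real.sq_sqrt zero_le_two]
  · rw [htr, sq, ← map_mul, h2, map_intCast]
    rfl
  · rw [Matrix.det_fin_two, hmat, hmat, hmat, hmat, ← map_mul, ← map_mul, ← map_sub]
    simp only [Quad.toMat, Matrix.of_apply, Matrix.cons_val', Matrix.cons_val_zero,
      Matrix.cons_val_one, Matrix.cons_val_fin_one]
    rw [h3, map_intCast]
    rfl

theorem octSym_eq (x : GL (Fin 2) (ZMod 3)) :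
    (octSym x : ℂ) = ((octRep x : GL (Fin 2) ℂ) : Matrix (Fin 2) (Fin 2) ℂ).trace ^ 2 -
      ((octRep x : GL (Fin 2) ℂ) : Matrix (Fin 2) (Fin 2) ℂ).det + 1 := by
  obtain ⟨-, h2, h3⟩ := octRep_trace_det x
  rw [h2, h3, octSym]
  push_cast
  ring

/-- Sums over `GL₂(𝔽₃)` of functions of the entries. -/
theorem sum_gl_eq (φ : ZMod 3 → ZMod 3 → ZMod 3 → ZMod 3 → ℤ) :
    ∑ x : GL (Fin 2) (ZMod 3), φ (x 0 0) (x 0 1) (x 1 0) (x 1 1) =
      ∑ q ∈ (Finset.univ : Finset (ZMod 3 × ZMod 3 × ZMod 3 × ZMod 3)).filter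
        (fun q ↦ q.1 * q.2.2.2 - q.2.1 * q.2.2.1 ≠ 0), φ q.1 q.2.1 q.2.2.1 q.2.2.2 := by
  refine Finset.sum_bij (fun x _ ↦ (x 0 0, x 0 1, x 1 0, x 1 1))
    (fun x _ ↦ Finset.mem_filter.2 ⟨Finset.mem_univ _, det_entries_ne_zero x⟩)
    (fun x _ y _ h ↦ ?_) (fun q hq ↦ ?_) fun x _ ↦ rfl
  · simp only [Prod.mk.injEq] at h
    refine Units.ext ?_
    rw [Matrix.eta_fin_two (x : Matrix (Fin 2) (Fin 2) (ZMod 3)),
      Matrix.eta_fin_two (y : Matrix (Fin 2) (Fin 2) (ZMod 3)), h.1, h.2.1, h.2.2.1, h.2.2.2]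
  · have hq2 : q.1 * q.2.2.2 - q.2.1 * q.2.2.1 ≠ 0 := by
      rw [Finset.mem_filter] at hq; exact hq.2
    refine ⟨Matrix.GeneralLinearGroup.mkOfDetNeZero !![q.1, q.2.1; q.2.2.1, q.2.2.2]
      (by rw [Matrix.det_fin_two_of]; exact hq2), by simp, ?_⟩
    rfl

theorem natCard_gl : Nat.card (GL (Fin 2) (ZMod 3)) = 48 := by
  have h : (Fintype.card (GL (Fin 2) (ZMod 3)) : ℤ) = 48 := by
    rw [← Finset.card_univ, Finset.card_eq_sum_ones, Nat.cast_sum]
    refine (sum_gl_eq fun _ _ _ _ ↦ 1).trans ?_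
    decide +kernel
  rw [Nat.card_eq_fintype_card]
  exact_mod_cast h

theorem mean_octNorm : (∑ x, octNorm x) / Nat.card (GL (Fin 2) (ZMod 3)) = 1 := by
  have h : ∑ x : GL (Fin 2) (ZMod 3), octNormInt x = 48 := (sum_gl_eq normVal).trans (by decide +kernel)
  rw [natCard_gl]
  simp only [octNorm, ← Int.cast_sum, h]
  norm_num

theorem mean_octSym : (∑ x, octSym x) / Nat.card (GL (Fin 2) (ZMod 3)) = 1 := by
  have h : ∑ x : GL (Fin 2) (ZMod 3), (octSign x * octNormInt x - octSign x + 1) = 48 :=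
    (sum_gl_eq fun a b c d ↦ signVal a b c d * normVal a b c d - signVal a b c d + 1).trans
      (by decide +kernel)
  rw [natCard_gl]
  simp only [octSym, ← Int.cast_sum, h]
  norm_num

open scoped Classical in
/-- The mean over a subgroup cut out by an entry condition. -/
theorem mean_octNorm_subgroup (U : Subgroup (GL (Fin 2) (ZMod 3)))
    (P : ZMod 3 → ZMod 3 → ZMod 3 → ZMod 3 → Prop) [∀ a b c d, Decidable (P a b c d)]
    (hU : ∀ x, x ∈ U ↔ P (x 0 0) (x 0 1) (x 1 0) (x 1 1)) {n : ℤ} (hn : n ≠ 0)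
    (hcard : ∑ q ∈ (Finset.univ : Finset (ZMod 3 × ZMod 3 × ZMod 3 × ZMod 3)).filter
        (fun q ↦ q.1 * q.2.2.2 - q.2.1 * q.2.2.1 ≠ 0),
        (if P q.1 q.2.1 q.2.2.1 q.2.2.2 then (1 : ℤ) else 0) = n)
    (hsum : ∑ q ∈ (Finset.univ : Finset (ZMod 3 × ZMod 3 × ZMod 3 × ZMod 3)).filter
        (fun q ↦ q.1 * q.2.2.2 - q.2.1 * q.2.2.1 ≠ 0),
        (if P q.1 q.2.1 q.2.2.1 q.2.2.2 then normVal q.1 q.2.1 q.2.2.1 q.2.2.2 else 0) = n) :
    (∑ x, if x ∈ U then octNorm x else 0) / Nat.card U = 1 := by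
  have h1 : ∑ x : GL (Fin 2) (ZMod 3), (if x ∈ U then (1 : ℤ) else 0) = n := by
    simp only [hU]; exact (sum_gl_eq fun a b c d ↦ if P a b c d then 1 else 0).trans hcard
  have h2 : ∑ x : GL (Fin 2) (ZMod 3), (if x ∈ U then octNormInt x else 0) = n := by
    simp only [hU, octNormInt]
    exact (sum_gl_eq fun a b c d ↦ if P a b c d then normVal a b c d else 0).trans hsum
  have hc : (Nat.card U : ℤ) = n := by
    rw [← h1, Finset.sum_boole, Nat.card_eq_fintype_card, Fintype.card_subtype]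
  have h2' : (∑ x, if x ∈ U then octNorm x else 0) = (n : ℝ) := by
    rw [← h2, Int.cast_sum]
    exact Finset.sum_congr rfl fun x _ ↦ by split_ifs <;> simp [octNorm]
  rw [h2', show (Nat.card U : ℝ) = (n : ℝ) by rw [← hc, Int.cast_natCast],
    div_self (Int.cast_ne_zero.2 hn)]

end Fermat.Agent.LT.Density
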