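import Fermat.Agent.LT.Density.Frobenius
import Fermat.Agent.S14.Cross.Transfer

/-!
# Frobenius density over a number field cut out by a normal subgroup of the image

If `Gal(ℚ̄/K) = ρ⁻¹ U` with `U` normal, then
`∑_v g v · Nv ^ (-s) = (mean of f over U) log (1 / (s - 1)) + O(1)` when `g v = f (ρ Frob_v)`
at almost all places of degree one and `g` is bounded.
-/

set_option autoImplicit false

noncomputable section

namespace Fermat.Agent.LT.Density

open NumberField IsDedekindDomain Fermat.Agent.Density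
open Fermat.Agent.DS (GalQ)
open scoped Classical

attribute [local instance] Density.normal_qbar

/-- A subgroup containing the Galois group of a finite level is that of its fixed field. -/
theorem fixing_iff_mem {G : Type} [Group G] (ρ : GalQ →* G)
    (hfac : GaloisFactorsThroughFiniteLevel ρ) (U : Subgroup G) (σ : GalQ) :
    (∀ x : IntermediateField.fixedField (U.comap ρ),
      σ (x : AlgebraicClosure ℚ) = x) ↔ ρ σ ∈ U := by
  obtain ⟨L, hL, hρ⟩ := hfac
  have := hL
  have : IsGalois ℚ (AlgebraicClosure ℚ) := ⟨⟩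
  have hle : L.fixingSubgroup ≤ U.comap ρ := fun τ hτ ↦ by
    rw [Subgroup.mem_comap, hρ τ ((IntermediateField.mem_fixingSubgroup_iff L τ).1 hτ)]
    exact one_mem U
  have ho : IsOpen (U.comap ρ : Set GalQ) :=
    Subgroup.isOpen_mono hle (IntermediateField.fixingSubgroup_isOpen L)
  have hfix : (IntermediateField.fixedField (U.comap ρ)).fixingSubgroup = U.comap ρ :=
    InfiniteGalois.fixingSubgroup_fixedField ⟨U.comap ρ, Subgroup.isClosed_of_isOpen _ ho⟩
  refine Iff.trans ?_ (SetLike.ext_iff.1 hfix σ)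
  rw [IntermediateField.mem_fixingSubgroup_iff]
  exact ⟨fun h x hx ↦ h ⟨x, hx⟩, fun h x ↦ h x x.2⟩

theorem idealCount_congr {K₁ K₂ : Type*} [Field K₁] [NumberField K₁] [Field K₂] [NumberField K₂]
    (e : K₁ ≃+* K₂) (n : ℕ) : idealCount K₁ n = idealCount K₂ n := by
  set e' : 𝓞 K₁ ≃+* 𝓞 K₂ := RingOfIntegers.mapRingEquiv e
  have habs : ∀ I : Ideal (𝓞 K₂), Ideal.absNorm (Ideal.comap e' I) = Ideal.absNorm I := fun I ↦ by
    rw [Ideal.absNorm_apply, Ideal.absNorm_apply, Submodule.cardQuot_apply,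
      Submodule.cardQuot_apply]
    exact Nat.card_congr (Ideal.quotientEquiv _ I e'
      (Ideal.map_comap_of_surjective e' e'.surjective I).symm).toEquiv
  refine (Nat.card_congr (Equiv.subtypeEquiv e'.idealComapOrderIso.toEquiv fun I ↦ ?_)).symm
  exact ⟨fun h ↦ (habs I).trans h, fun h ↦ (habs I).symm.trans h⟩

variable {G : Type} [Group G] [Fintype G] (ρ : GalQ →* G)
  {K : Type} [Field K] [NumberField K] (ι : K →ₐ[ℚ] AlgebraicClosure ℚ) (U : Subgroup G)

/-- The degree one places of `K` over a good prime. -/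
theorem exists_idealCount_eq (hfac : GaloisFactorsThroughFiniteLevel ρ)
    (hsurj : Function.Surjective ρ) [hU : U.Normal]
    (hK : ∀ σ : GalQ, (∀ x : K, σ (ι x) = ι x) ↔ ρ σ ∈ U) :
    ∃ S : Set ℕ, S.Finite ∧ ∀ p : ℕ, p.Prime → p ∉ S →
      ∀ A : ValuationSubring (AlgebraicClosure ℚ), A.LiesOverPrime p →
        ∀ σ : GalQ, A.IsFrobeniusAt σ p →
          (idealCount K p : ℝ) * Nat.card U = if ρ σ ∈ U then (Nat.card G : ℝ) else 0 := by
  have : FiniteDimensional ℚ ι.fieldRange :=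
    (AlgEquiv.ofInjectiveField ι).toLinearEquiv.finiteDimensional
  obtain ⟨L, _, _, _, π, hW, hπ⟩ := exists_factor_level ρ hfac ι.fieldRange
  have : IsGalois ℚ L := ⟨⟩
  have hπs : Function.Surjective π := fun g ↦ by
    obtain ⟨σ, rfl⟩ := hsurj g
    exact ⟨_, (hπ σ).symm⟩
  let j : K →ₐ[ℚ] L := ι.codRestrict L.toSubalgebra fun x ↦ hW ⟨x, rfl⟩
  have hjι : ∀ x : K, ((j x : L) : AlgebraicClosure ℚ) = ι x := fun _ ↦ rfl
  set H : Subgroup (L ≃ₐ[ℚ] L) := U.comap π
  have hrange : j.fieldRange = IntermediateField.fixedField H := by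
    rw [← IsGalois.fixedField_fixingSubgroup j.fieldRange]
    congr 1
    ext γ
    obtain ⟨σ, rfl⟩ := AlgEquiv.restrictNormalHom_surjective (F := ℚ)
      (K₁ := L) (AlgebraicClosure ℚ) γ
    rw [IntermediateField.mem_fixingSubgroup_iff, Subgroup.mem_comap]
    change _ ↔ π (σ.restrictNormal L) ∈ U
    rw [← hπ, ← hK]
    constructor
    · intro h x
      rw [← hjι]
      conv_rhs => rw [← show (σ.restrictNormal L) (j x) = j x from h (j x) ⟨x, rfl⟩]
      exact (AlgEquiv.restrictNormal_commutes σ L (j x)).symm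
    · rintro h y ⟨x, rfl⟩
      refine Subtype.ext ?_
      change ((σ.restrictNormal L (j x) : L) : AlgebraicClosure ℚ) = (j x : AlgebraicClosure ℚ)
      rw [hjι, ← h x, ← hjι]
      exact AlgEquiv.restrictNormal_commutes σ L (j x)
  have hcount : ∀ n, idealCount K n =
      idealCount (IntermediateField.fixedField H : IntermediateField ℚ L) n := fun n ↦
    idealCount_congr ((AlgEquiv.ofInjectiveField j).toRingEquiv.trans
      (RingEquiv.subringCongr (R := L) (by
        rw [← hrange]; rfl : j.range.toSubring = (IntermediateField.fixedField H).toSubring))) n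
  refine ⟨{p | p.Prime ∧ ¬ Separated L p}, finite_not_separated L, fun p hp hpS A hA σ hσ ↦ ?_⟩
  have hsep : Separated L p := not_not.1 fun h ↦ hpS ⟨hp, h⟩
  have h := congrArg (fun n : ℕ ↦ (n : ℝ))
    (idealCount_fixedField_mul hp hsep H (DS.isFrobAt_restrictNormal (L := L) hA hσ))
  have hc := sum_comp_div_card hπs fun x ↦ if x ∈ U then (1 : ℝ) else 0
  rw [Finset.sum_boole, Finset.sum_boole] at hc
  simp only [← Fintype.card_subtype, ← Nat.card_eq_fintype_card] at hc
  rw [div_eq_div_iff (Nat.cast_ne_zero.2 Nat.card_pos.ne') (Nat.cast_ne_zero.2 Nat.card_pos.ne')]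
    at hc
  change (Nat.card H : ℝ) * _ = (Nat.card U : ℝ) * _ at hc
  push_cast at h
  rw [← hcount] at h
  have hy : (Nat.card {y : L ≃ₐ[ℚ] L // y * σ.restrictNormal L * y⁻¹ ∈ H} : ℝ) =
      if ρ σ ∈ U then (Nat.card (L ≃ₐ[ℚ] L) : ℝ) else 0 := by
    have key : ∀ y : L ≃ₐ[ℚ] L, (y * σ.restrictNormal L * y⁻¹ ∈ H ↔ ρ σ ∈ U) := fun y ↦ by
      rw [Subgroup.mem_comap, map_mul, map_mul, map_inv, ← hπ]
      refine ⟨fun h ↦ ?_, fun h ↦ hU.conj_mem _ h (π y)⟩
      simpa [mul_assoc] using hU.conj_mem _ h (π y)⁻¹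
    split_ifs with hσU
    · rw [Nat.card_congr (Equiv.subtypeUnivEquiv fun y ↦ (key y).2 hσU)]
    · have : IsEmpty {y : L ≃ₐ[ℚ] L // y * σ.restrictNormal L * y⁻¹ ∈ H} :=
        ⟨fun y ↦ hσU ((key y.1).1 y.2)⟩
      simp
  rw [hy] at h
  have hH : (Nat.card H : ℝ) ≠ 0 := Nat.cast_ne_zero.2 Nat.card_pos.ne'
  split_ifs at h ⊢
  · refine mul_right_cancel₀ hH ?_
    linear_combination (Nat.card U : ℝ) * h - hc
  · rw [(mul_eq_zero.1 h).resolve_right hH, zero_mul]

/-- Sums over places of degree one are sums over rational primes. -/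
theorem tsum_degreeOne_eq (h : ℕ → ℝ) {B : ℝ} (hB : ∀ n, |h n| ≤ B) {s : ℝ} (hs : 1 < s) :
    (∑' v : HeightOneSpectrum (𝓞 K), ({v : HeightOneSpectrum (𝓞 K) |
        (Ideal.absNorm v.asIdeal).Prime}.indicator
        (fun v ↦ h (Ideal.absNorm v.asIdeal) * (Ideal.absNorm v.asIdeal : ℝ) ^ (-s)) v)) =
      ∑' p : Nat.Primes, (idealCount K p * h p) * ((p : ℕ) : ℝ) ^ (-s) := by
  set T : Set (HeightOneSpectrum (𝓞 K)) := {v | (Ideal.absNorm v.asIdeal).Prime}
  set F := fun v : HeightOneSpectrum (𝓞 K) ↦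
    h (Ideal.absNorm v.asIdeal) * (Ideal.absNorm v.asIdeal : ℝ) ^ (-s)
  let e : (Σ p : Nat.Primes, {I : Ideal (𝓞 K) // Ideal.absNorm I = p}) → T := fun x ↦
    ⟨⟨x.2.1, Ideal.isPrime_of_irreducible_absNorm (by rw [x.2.2]; exact x.1.2),
      fun h0 ↦ x.1.2.ne_zero (by rw [← x.2.2, h0, Ideal.absNorm_bot])⟩,
      show (Ideal.absNorm x.2.1).Prime by rw [x.2.2]; exact x.1.2⟩
  have he : Function.Bijective e := by
    refine ⟨fun x y hxy ↦ ?_, fun v ↦
      ⟨⟨⟨_, v.2⟩, ⟨v.1.asIdeal, rfl⟩⟩, Subtype.ext (HeightOneSpectrum.ext rfl)⟩⟩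
    obtain ⟨p, I, hI⟩ := x
    obtain ⟨q, J, hJ⟩ := y
    have h1 : I = J := congrArg (fun v : T ↦ v.1.asIdeal) hxy
    subst h1
    obtain rfl : p = q := Subtype.ext (hI.symm.trans hJ)
    rfl
  have hsum : Summable (T.indicator F) := by
    refine (Summable.of_norm_bounded ((S14.summable_primeNorm hs).mul_left B) fun v ↦ ?_).indicator T
    rw [norm_mul, Real.norm_eq_abs, Real.norm_of_nonneg (Real.rpow_nonneg (Nat.cast_nonneg _) _)]
    exact mul_le_mul_of_nonneg_right (hB _) (Real.rpow_nonneg (Nat.cast_nonneg _) _)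
  rw [← tsum_subtype T F, ← (Equiv.ofBijective e he).tsum_eq fun v : T ↦ F v]
  have hsub : Summable fun v : T ↦ F v := summable_subtype_iff_indicator.2 hsum
  have hsig := (Equiv.ofBijective e he).summable_iff.2 hsub
  refine hsig.tsum_sigma.trans (tsum_congr fun p ↦ ?_)
  have := idealCount_finite (K := K) p
  cases nonempty_fintype {I : Ideal (𝓞 K) // Ideal.absNorm I = p}
  rw [tsum_fintype]
  simp only [Function.comp_apply, Equiv.ofBijective_apply, F, e]
  rw [Finset.sum_congr rfl fun I _ ↦ by rw [I.2], Finset.sum_const, Finset.card_univ,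
    nsmul_eq_mul, ← Nat.card_eq_fintype_card, idealCount, mul_assoc]

/-- **Chebotarev over `K` for rational class functions, with bounded error.** -/
theorem exists_abs_placeSum_sub_le (hfac : GaloisFactorsThroughFiniteLevel ρ)
    (hsurj : Function.Surjective ρ) [hU : U.Normal]
    (hK : ∀ σ : GalQ, (∀ x : K, σ (ι x) = ι x) ↔ ρ σ ∈ U)
    {f : G → ℝ} (hf : IsRationalClassFun f) (g : HeightOneSpectrum (𝓞 K) → ℝ) {B : ℝ}
    (hgB : ∀ v, |g v| ≤ B) {S : Set ℕ} (hS : S.Finite)
    (hg : ∀ (v : HeightOneSpectrum (𝓞 K)) (p : ℕ), p.Prime → Ideal.absNorm v.asIdeal = p →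
      p ∉ S → ∀ A : ValuationSubring (AlgebraicClosure ℚ), A.LiesOverPrime p →
        ∀ σ : GalQ, A.IsFrobeniusAt σ p → g v = f (ρ σ)) :
    ∃ C : ℝ, ∀ s : ℝ, 1 < s → s ≤ 2 →
      Summable (fun v : HeightOneSpectrum (𝓞 K) ↦ g v * (Ideal.absNorm v.asIdeal : ℝ) ^ (-s)) ∧
      |(∑' v : HeightOneSpectrum (𝓞 K), g v * (Ideal.absNorm v.asIdeal : ℝ) ^ (-s)) -
        (∑ x, if x ∈ U then f x else 0) / Nat.card U * Real.log (1 / (s - 1))| ≤ C := by
  obtain ⟨S₁, hS₁, hcnt⟩ := exists_idealCount_eq ρ ι U hfac hsurj hK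
  obtain ⟨S₂, hS₂, hconj⟩ := exists_finite_isConj_frobLift ρ hfac
  set M : ℝ := ∑ x, |f x|
  have hfM : ∀ x, |f x| ≤ M := fun x ↦
    Finset.single_le_sum (f := fun x ↦ |f x|) (fun x _ ↦ abs_nonneg _) (Finset.mem_univ _)
  set h : ℕ → ℝ := fun p ↦ f (ρ (frobLift p))
  have hcj : ∀ p, p.Prime → p ∉ S₂ → ∀ A : ValuationSubring (AlgebraicClosure ℚ),
      A.LiesOverPrime p → ∀ σ : GalQ, A.IsFrobeniusAt σ p → h p = f (ρ σ) := by
    intro p hp hpS A hA σ hσ
    obtain ⟨c, hc⟩ := isConj_iff.1 (hconj p hp hpS A hA σ hσ)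
    rw [← hc, hf.conj]
  set c : ℝ := Nat.card G / Nat.card U
  obtain ⟨C, hC⟩ := exists_abs_frobSum_sub_le ρ hfac hsurj
    ((IsRationalClassFun.const c).mul ((IsRationalClassFun.indicator U).mul hf))
    (fun p ↦ idealCount K p * h p) (hS₁.union hS₂) fun p hp hpS A hA σ hσ ↦ by
      rw [Set.mem_union, not_or] at hpS
      have h1 := hcnt p hp hpS.1 A hA σ hσ
      rw [hcj p hp hpS.2 A hA σ hσ]
      have hU0 : (Nat.card U : ℝ) ≠ 0 := Nat.cast_ne_zero.2 Nat.card_pos.ne'
      rw [(eq_div_iff hU0).2 h1]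
      split_ifs <;> simp [c]
  set T : Set (HeightOneSpectrum (𝓞 K)) := {v | (Ideal.absNorm v.asIdeal).Prime}
  set W : Set (HeightOneSpectrum (𝓞 K)) := {v | Ideal.absNorm v.asIdeal ∈ S ∪ S₂}
  have hW : W.Finite := by
    refine Set.Finite.of_finite_image (((hS.union hS₂).biUnion fun n _ ↦
      Ideal.finite_setOfPred_absNorm_eq (S := 𝓞 K) n).subset ?_)
      fun v _ w _ hvw ↦ HeightOneSpectrum.ext hvw
    rintro _ ⟨v, hv, rfl⟩
    exact Set.mem_biUnion hv rfl
  obtain ⟨C₁, hC₁⟩ := S14.Cross.exists_primeSum_not_prime_le (M := K)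
  set e : HeightOneSpectrum (𝓞 K) → ℝ := fun v ↦
    g v - T.indicator (fun v ↦ h (Ideal.absNorm v.asIdeal)) v with he
  set R : ℝ := |B| + M
  have heB : ∀ v, |e v| ≤ R := fun v ↦ by
    refine (abs_sub _ _).trans (add_le_add ((hgB v).trans (le_abs_self B)) ?_)
    by_cases hv : v ∈ T
    · rw [Set.indicator_of_mem hv]; exact hfM _
    · rw [Set.indicator_of_notMem hv, abs_zero]
      exact (abs_nonneg _).trans (hfM 1)
  have he0 : ∀ v, v ∈ T → v ∉ W → e v = 0 := fun v hv hvW ↦ by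
    simp only [W, Set.mem_ofPred_eq, Set.mem_union, not_or] at hvW
    obtain ⟨A, hA, hσ⟩ := exists_frobLift_spec (show (Ideal.absNorm v.asIdeal).Prime from hv)
    rw [he]
    simp only [Set.indicator_of_mem hv, h]
    rw [hg v _ hv rfl hvW.1 A hA _ hσ, sub_self]
  refine ⟨C + R * (C₁ + hW.toFinset.card), fun s hs hs2 ↦ ?_⟩
  obtain ⟨-, hC'⟩ := hC s hs hs2
  set N : HeightOneSpectrum (𝓞 K) → ℝ := fun v ↦ (Ideal.absNorm v.asIdeal : ℝ) ^ (-s)
  have hN0 : ∀ v, 0 ≤ N v := fun v ↦ Real.rpow_nonneg (Nat.cast_nonneg _) _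
  have hNs : Summable N := S14.summable_primeNorm hs
  set F := T.indicator fun v ↦ h (Ideal.absNorm v.asIdeal) * N v
  have hF : Summable F := by
    refine (Summable.of_norm_bounded (hNs.mul_left M) fun v ↦ ?_).indicator T
    rw [norm_mul, Real.norm_eq_abs, Real.norm_of_nonneg (hN0 v)]
    exact mul_le_mul_of_nonneg_right (hfM _) (hN0 v)
  have hE : Summable fun v ↦ e v * N v := by
    refine Summable.of_norm_bounded (hNs.mul_left R) fun v ↦ ?_
    rw [norm_mul, Real.norm_eq_abs, Real.norm_of_nonneg (hN0 v)]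
    exact mul_le_mul_of_nonneg_right (heB v) (hN0 v)
  have hsplit : (fun v ↦ g v * N v) = fun v ↦ F v + e v * N v := funext fun v ↦ by
    simp only [F, he]
    by_cases hv : v ∈ T
    · rw [Set.indicator_of_mem hv, Set.indicator_of_mem hv]; ring
    · rw [Set.indicator_of_notMem hv, Set.indicator_of_notMem hv]; ring
  change Summable (fun v ↦ g v * N v) ∧ |(∑' v, g v * N v) - _| ≤ _
  rw [hsplit]
  refine ⟨hF.add hE, ?_⟩
  rw [hF.tsum_add hE, tsum_degreeOne_eq h (fun n ↦ hfM _) hs, add_sub_right_comm]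
  refine (abs_add_le _ _).trans (add_le_add (le_of_eq_of_le ?_ hC') ?_)
  · congr 3
    rw [Finset.sum_div, Finset.sum_div]
    refine Finset.sum_congr rfl fun x _ ↦ ?_
    have hG0 : (Fintype.card G : ℝ) ≠ 0 := Nat.cast_ne_zero.2 Fintype.card_ne_zero
    have hU0 : (Nat.card U : ℝ) ≠ 0 := Nat.cast_ne_zero.2 Nat.card_pos.ne'
    simp only [c, Nat.card_eq_fintype_card (α := G)]
    by_cases hx : x ∈ U <;> simp [hx] <;> field_simp
  · rw [← Real.norm_eq_abs]
    refine (norm_tsum_le_tsum_norm hE.norm).trans ?_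
    have hind : ∀ A : Set (HeightOneSpectrum (𝓞 K)), Summable (A.indicator N) := hNs.indicator
    calc (∑' v, ‖e v * N v‖)
        ≤ ∑' v, R * (Tᶜ.indicator N v + W.indicator N v) := by
          refine hE.norm.tsum_le_tsum (fun v ↦ ?_) (((hind _).add (hind _)).mul_left R)
          rw [norm_mul, Real.norm_eq_abs, Real.norm_of_nonneg (hN0 v)]
          by_cases hv : v ∈ T ∧ v ∉ W
          · rw [he0 v hv.1 hv.2, abs_zero, zero_mul]
            exact mul_nonneg ((abs_nonneg _).trans (heB v))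
              (add_nonneg (Set.indicator_nonneg (fun v _ ↦ hN0 v) v)
                (Set.indicator_nonneg (fun v _ ↦ hN0 v) v))
          · refine mul_le_mul (heB v) ?_ (hN0 v) ((abs_nonneg _).trans (heB v))
            rw [not_and_or, not_not] at hv
            rcases hv with hv | hv
            · rw [Set.indicator_of_mem (show v ∈ Tᶜ from hv)]
              exact le_add_of_nonneg_right (Set.indicator_nonneg (fun v _ ↦ hN0 v) v)
            · rw [Set.indicator_of_mem hv]
              exact le_add_of_nonneg_left (Set.indicator_nonneg (fun v _ ↦ hN0 v) v)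
      _ = R * ((∑' v, Tᶜ.indicator N v) + ∑' v, W.indicator N v) := by
          rw [tsum_mul_left, (hind _).tsum_add (hind _)]
      _ ≤ _ := by
          refine mul_le_mul_of_nonneg_left (add_le_add (hC₁ s hs) ?_)
            (add_nonneg (abs_nonneg _) (Finset.sum_nonneg fun x _ ↦ abs_nonneg _))
          rw [tsum_eq_sum (s := hW.toFinset) fun v hv ↦
            Set.indicator_of_notMem (fun hm ↦ hv (hW.mem_toFinset.2 hm)) _]
          refine (Finset.sum_le_card_nsmul _ _ 1 fun v _ ↦ ?_).trans_eq (by simp)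
          refine (Set.indicator_le_self' (fun v _ ↦ hN0 v) v).trans
            ((S14.primeNorm_rpow_le_half v hs).trans (by norm_num))

end Fermat.Agent.LT.Density
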