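import Fermat.Agent.LT.Data.Galois
import Fermat.Agent.LT.Density.Places
import Fermat.Agent.LT.Density.Theta

/-!
# The density inputs of the LT route

For `θ = octRep ∘ ρ`: `∑ |tr θ(Frob)|² N^(-s)` is `log (1/(s-1)) + O(1)` over `ℚ`, over
`F = ℚ(√-3)` and over `F' = F(∛Δ)`, and so is `∑_p ((tr θ)² - det θ + 1)(Frob_p) p^(-s)`.
-/

set_option autoImplicit false

noncomputable section

namespace Fermat.Agent.LT.Density

open NumberField IsDedekindDomain Fermat.Agent.Galois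
open scoped MatrixGroups Classical

variable {W : WeierstrassCurve ℤ} {ρ : GalQ →* GL (Fin 2) (ZMod 3)}

theorem normSq_octTrace (ρ : GalQ →* GL (Fin 2) (ZMod 3)) (σ : GalQ) :
    Complex.normSq (octTrace ρ σ) = octNorm (ρ σ) :=
  (octRep_trace_det (ρ σ)).1

theorem octTrace_sq_sub_det_add_one (ρ : GalQ →* GL (Fin 2) (ZMod 3)) (σ : GalQ) :
    octTrace ρ σ ^ 2 - ((octRep (ρ σ) : GL (Fin 2) ℂ) : Matrix (Fin 2) (Fin 2) ℂ).det + 1 =
      (octSym (ρ σ) : ℂ) :=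
  (octSym_eq (ρ σ)).symm

/-- `∑_p |tr θ(Frob_p)|² p^(-s) = log (1/(s-1)) + O(1)`. -/
theorem exists_abs_octNormSum_sub_le (hρ : IsThreeRep W ρ) (a : ℕ → ℝ) {S : Set ℕ} (hS : S.Finite)
    (ha : ∀ p : ℕ, p.Prime → p ∉ S → ∀ A : ValuationSubring Qbar, A.LiesOverPrime p →
      ∀ σ : GalQ, A.IsFrobeniusAt σ p → a p = Complex.normSq (octTrace ρ σ)) :
    ∃ C : ℝ, ∀ s : ℝ, 1 < s → s ≤ 2 →
      Summable (fun p : Nat.Primes ↦ a p * ((p : ℕ) : ℝ) ^ (-s)) ∧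
      |(∑' p : Nat.Primes, a p * ((p : ℕ) : ℝ) ^ (-s)) - Real.log (1 / (s - 1))| ≤ C := by
  obtain ⟨C, hC⟩ := exists_abs_frobSum_sub_le ρ hρ.factors hρ.surjective isRationalClassFun_octNorm
    a hS fun p hp hpS A hA σ hσ ↦ (ha p hp hpS A hA σ hσ).trans (normSq_octTrace ρ σ)
  refine ⟨C, fun s hs hs2 ↦ ?_⟩
  have h := hC s hs hs2
  rwa [mean_octNorm, one_mul] at h

/-- `∑_p tr (Sym² θ ⊕ 1)(Frob_p) p^(-s) = log (1/(s-1)) + O(1)`. -/
theorem exists_abs_octSymSum_sub_le (hρ : IsThreeRep W ρ) (a : ℕ → ℝ) {S : Set ℕ} (hS : S.Finite)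
    (ha : ∀ p : ℕ, p.Prime → p ∉ S → ∀ A : ValuationSubring Qbar, A.LiesOverPrime p →
      ∀ σ : GalQ, A.IsFrobeniusAt σ p → (a p : ℂ) =
        octTrace ρ σ ^ 2 - ((octRep (ρ σ) : GL (Fin 2) ℂ) : Matrix (Fin 2) (Fin 2) ℂ).det + 1) :
    ∃ C : ℝ, ∀ s : ℝ, 1 < s → s ≤ 2 →
      Summable (fun p : Nat.Primes ↦ a p * ((p : ℕ) : ℝ) ^ (-s)) ∧
      |(∑' p : Nat.Primes, a p * ((p : ℕ) : ℝ) ^ (-s)) - Real.log (1 / (s - 1))| ≤ C := by
  obtain ⟨C, hC⟩ := exists_abs_frobSum_sub_le ρ hρ.factors hρ.surjective isRationalClassFun_octSym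
    a hS fun p hp hpS A hA σ hσ ↦ Complex.ofReal_injective
      ((ha p hp hpS A hA σ hσ).trans (octTrace_sq_sub_det_add_one ρ σ))
  refine ⟨C, fun s hs hs2 ↦ ?_⟩
  have h := hC s hs hs2
  rwa [mean_octSym, one_mul] at h

/-- At a place of degree one outside a finite set some Frobenius element over the place is a
Frobenius element over `ℚ` at the prime below. -/
theorem exists_finite_isFrobOver {G : Type} [Group G] [Fintype G] (π : GalQ →* G)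
    (hfac : GaloisFactorsThroughFiniteLevel π) (hsurj : Function.Surjective π)
    (K : IntermediateField ℚ Qbar) [NumberField K] (U : Subgroup G) [U.Normal]
    (hK : ∀ σ : GalQ, (∀ x : K, σ (x : Qbar) = x) ↔ π σ ∈ U) :
    ∃ S : Set ℕ, S.Finite ∧ ∀ (v : HeightOneSpectrum (𝓞 K)) (p : ℕ), p.Prime →
      Ideal.absNorm v.asIdeal = p → p ∉ S →
        ∃ (A : ValuationSubring Qbar) (σ : GalQ), A.LiesOverPrime p ∧ A.IsFrobeniusAt σ p ∧
          IsFrobOver K v.asIdeal σ := by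
  obtain ⟨S, hS, hcnt⟩ := exists_idealCount_eq π K.val U hfac hsurj hK
  refine ⟨S, hS, fun v p hp hv hpS ↦ ?_⟩
  have hpv : (p : 𝓞 K) ∈ v.asIdeal := hv ▸ Ideal.absNorm_mem _
  obtain ⟨A, hA, hAv⟩ := exists_levelPlaceIdeal_eq K hp v.asIdeal hpv
  obtain ⟨σ, hσ⟩ := Galois.exists_isFrobeniusAt hA hp
  have hmem : π σ ∈ U := by
    by_contra h
    have hc := hcnt p hp hpS A hA σ hσ
    rw [if_neg h] at hc
    have : Nonempty {I : Ideal (𝓞 K) // Ideal.absNorm I = p} := ⟨⟨v.asIdeal, hv⟩⟩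
    have := Density.idealCount_finite (K := K) p
    have h0 : 0 < Fermat.Agent.Density.idealCount K p := Nat.card_pos
    exact mul_ne_zero (Nat.cast_ne_zero.2 h0.ne') (Nat.cast_ne_zero.2 Nat.card_pos.ne') hc
  refine ⟨A, σ, hA, hσ, ?_, A, fun x ↦ ?_, hσ.mem_decompositionSubgroup, fun x hx ↦ ?_⟩
  · rw [IntermediateField.mem_fixingSubgroup_iff]
    exact fun x hx ↦ (hK σ).2 hmem ⟨x, hx⟩
  · rw [← hAv, mem_levelPlaceIdeal_iff]
  · rw [← Submodule.cardQuot_apply, ← Ideal.absNorm_apply, hv]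
    exact isFrobeniusAt_sub_mem_nonunits hσ hx

/-- Density over a subfield `K` with `Gal(ℚ̄/K) = ρ⁻¹ U` on which `|tr θ|²` has mean one. -/
theorem exists_abs_octPlaceSum_sub_le (hfac : GaloisFactorsThroughFiniteLevel ρ)
    (hsurj : Function.Surjective ρ) (U : Subgroup (GL (Fin 2) (ZMod 3))) [U.Normal]
    (hmean : (∑ x, if x ∈ U then octNorm x else 0) / Nat.card U = 1)
    (K : IntermediateField ℚ Qbar) [NumberField K]
    (hK : ∀ σ : GalQ, (∀ x : K, σ (x : Qbar) = x) ↔ ρ σ ∈ U)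
    (g : HeightOneSpectrum (𝓞 K) → ℝ) {B : ℝ} (hgB : ∀ v, |g v| ≤ B)
    {S : Set ℕ} (hS : S.Finite)
    (hg : ∀ (v : HeightOneSpectrum (𝓞 K)) (p : ℕ), p.Prime → Ideal.absNorm v.asIdeal = p →
      p ∉ S → ∀ σ : GalQ, IsFrobOver K v.asIdeal σ → g v = Complex.normSq (octTrace ρ σ)) :
    ∃ C : ℝ, ∀ s : ℝ, 1 < s → s ≤ 2 →
      Summable (fun v : HeightOneSpectrum (𝓞 K) ↦ g v * (Ideal.absNorm v.asIdeal : ℝ) ^ (-s)) ∧
      |(∑' v : HeightOneSpectrum (𝓞 K), g v * (Ideal.absNorm v.asIdeal : ℝ) ^ (-s)) -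
        Real.log (1 / (s - 1))| ≤ C := by
  obtain ⟨S₁, hS₁, hfrob⟩ := exists_finite_isFrobOver ρ hfac hsurj K U hK
  obtain ⟨S₂, hS₂, hconj⟩ := exists_finite_isConj_frobLift ρ hfac
  obtain ⟨C, hC⟩ := exists_abs_placeSum_sub_le ρ K.val U hfac hsurj hK isRationalClassFun_octNorm g
    hgB ((hS.union hS₁).union hS₂) fun v p hp hv hpS A hA σ hσ ↦ by
      simp only [Set.mem_union, not_or] at hpS
      obtain ⟨⟨hpS, hpS₁⟩, hpS₂⟩ := hpS
      obtain ⟨A', σ', hA', hσ', hover⟩ := hfrob v p hp hv hpS₁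
      obtain ⟨y, hy⟩ := isConj_iff.1
        ((hconj p hp hpS₂ A' hA' σ' hσ').symm.trans (hconj p hp hpS₂ A hA σ hσ))
      rw [hg v p hp hv hpS σ' hover, normSq_octTrace, ← hy, isRationalClassFun_octNorm.conj]
  refine ⟨C, fun s hs hs2 ↦ ?_⟩
  have h := hC s hs hs2
  rwa [hmean, one_mul] at h

theorem comap_ker_det (hρ : IsThreeRep W ρ) :
    (Matrix.GeneralLinearGroup.det : GL (Fin 2) (ZMod 3) →* (ZMod 3)ˣ).ker.comap ρ = kerOmega := by
  ext σ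
  simp only [Subgroup.mem_comap, kerOmega, MonoidHom.mem_ker, hρ.det]

theorem fixing_fieldF_iff (hρ : IsThreeRep W ρ) (σ : GalQ) :
    (∀ x : fieldF, σ (x : Qbar) = x) ↔
      ρ σ ∈ (Matrix.GeneralLinearGroup.det : GL (Fin 2) (ZMod 3) →* (ZMod 3)ˣ).ker := by
  have h := fixing_iff_mem ρ hρ.factors
    (Matrix.GeneralLinearGroup.det : GL (Fin 2) (ZMod 3) →* (ZMod 3)ˣ).ker σ
  rw [comap_ker_det hρ] at h
  exact h

/-- `∑_v |tr θ(Frob_v)|² Nv^(-s) = log (1/(s-1)) + O(1)` over `F = ℚ(√-3)`. -/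
theorem exists_abs_octPlaceSum_fieldF_sub_le (hρ : IsThreeRep W ρ) [NumberField fieldF]
    (g : HeightOneSpectrum (𝓞 fieldF) → ℝ) {B : ℝ} (hgB : ∀ v, |g v| ≤ B)
    {S : Set ℕ} (hS : S.Finite)
    (hg : ∀ (v : HeightOneSpectrum (𝓞 fieldF)) (p : ℕ), p.Prime → Ideal.absNorm v.asIdeal = p →
      p ∉ S → ∀ σ : GalQ, IsFrobOver fieldF v.asIdeal σ → g v = Complex.normSq (octTrace ρ σ)) :
    ∃ C : ℝ, ∀ s : ℝ, 1 < s → s ≤ 2 →
      Summable (fun v : HeightOneSpectrum (𝓞 fieldF) ↦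
        g v * (Ideal.absNorm v.asIdeal : ℝ) ^ (-s)) ∧
      |(∑' v : HeightOneSpectrum (𝓞 fieldF), g v * (Ideal.absNorm v.asIdeal : ℝ) ^ (-s)) -
        Real.log (1 / (s - 1))| ≤ C :=
  exists_abs_octPlaceSum_sub_le hρ.factors hρ.surjective _
    (mean_octNorm_subgroup _ (fun a b c d ↦ a * d - b * c = 1)
      (fun x ↦ by rw [MonoidHom.mem_ker, det_eq_one_iff]) (n := 24) (by norm_num)
      (by decide +kernel) (by decide +kernel))
    fieldF (fixing_fieldF_iff hρ) g hgB hS hg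

theorem normal_quatSubgroup : (quatSubgroup).Normal := by
  have key : ∀ a b c d : ZMod 3, a * d - b * c ≠ 0 → (InQuat a b c d ↔
      a * d - b * c = 1 ∧ (b * (a + d) = 0 ∧ c * (a + d) = 0 ∧ a * a = d * d)) := by
    decide +kernel
  have hmem : ∀ x, x ∈ quatSubgroup ↔
      Matrix.GeneralLinearGroup.det x = 1 ∧ IsPlusMinusOne (x * x) := fun x ↦ by
    rw [mem_quatSubgroup, key _ _ _ _ (det_entries_ne_zero x), det_eq_one_iff,
      isPlusMinusOne_sq_iff]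
  refine ⟨fun x hx y ↦ ?_⟩
  rw [hmem] at hx ⊢
  refine ⟨by rw [map_mul, map_mul, map_inv, mul_inv_cancel_comm, hx.1], ?_⟩
  rw [show y * x * y⁻¹ * (y * x * y⁻¹) = y * (x * x) * y⁻¹ by group, isPlusMinusOne_conj_iff]
  exact hx.2

/-- `∑_w |tr θ(Frob_w)|² Nw^(-s) = log (1/(s-1)) + O(1)` over `F' = F(∛Δ)`. -/
theorem exists_abs_octPlaceSum_fieldF'_sub_le (hρ : IsThreeRep W ρ) [NumberField (fieldF' ρ)]
    (g : HeightOneSpectrum (𝓞 (fieldF' ρ)) → ℝ) {B : ℝ} (hgB : ∀ v, |g v| ≤ B)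
    {S : Set ℕ} (hS : S.Finite)
    (hg : ∀ (v : HeightOneSpectrum (𝓞 (fieldF' ρ))) (p : ℕ), p.Prime →
      Ideal.absNorm v.asIdeal = p →
      p ∉ S → ∀ σ : GalQ, IsFrobOver (fieldF' ρ) v.asIdeal σ →
        g v = Complex.normSq (octTrace ρ σ)) :
    ∃ C : ℝ, ∀ s : ℝ, 1 < s → s ≤ 2 →
      Summable (fun v : HeightOneSpectrum (𝓞 (fieldF' ρ)) ↦
        g v * (Ideal.absNorm v.asIdeal : ℝ) ^ (-s)) ∧
      |(∑' v : HeightOneSpectrum (𝓞 (fieldF' ρ)), g v * (Ideal.absNorm v.asIdeal : ℝ) ^ (-s)) -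
        Real.log (1 / (s - 1))| ≤ C := by
  have := normal_quatSubgroup
  exact exists_abs_octPlaceSum_sub_le hρ.factors hρ.surjective quatSubgroup
    (mean_octNorm_subgroup _ InQuat (fun x ↦ mem_quatSubgroup) (n := 8) (by norm_num)
      (by decide +kernel) (by decide +kernel))
    (fieldF' ρ) (fun σ ↦ fixing_iff_mem ρ hρ.factors quatSubgroup σ) g hgB hS hg

end Fermat.Agent.LT.Density
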