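import Fermat.Agent.LT.Density.RayL
import Fermat.Agent.LT.Density.Oct
import Fermat.Agent.S14.Cross.Mass

/-!
# No ray class character of `F'` matches the octahedral lift

If `tr θ(Frob_w) = η(w) + η(w)⁻¹` at almost all places `w` of `F'`, then `ψ = (η ∘ extension)²` is a
ray class character of `F` which is `-1` exactly at the Frobenius classes of order four in `Q₈`:
its mean is `1/2`, but a ray class character has mean one or is bounded above.
-/

set_option autoImplicit false
set_option linter.unusedSectionVars false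

noncomputable section

namespace Fermat.Agent.LT.Density

open NumberField IsDedekindDomain Fermat.Agent.Galois UniqueFactorizationMonoid
open scoped MatrixGroups Classical nonZeroDivisors

variable {W : WeierstrassCurve ℤ} {ρ : GalQ →* GL (Fin 2) (ZMod 3)}

/-- `-1` on the noncentral elements of `Q₈`, `1` elsewhere. -/
def quatSign (x : GL (Fin 2) (ZMod 3)) : ℝ :=
  if x ∈ quatSubgroup ∧ ¬ IsPlusMinusOne x then -1 else 1

theorem isRationalClassFun_quatSign : IsRationalClassFun quatSign := by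
  have hN := normal_quatSubgroup
  refine ⟨fun x y ↦ if_congr (and_congr ⟨fun h ↦ ?_, fun h ↦ hN.conj_mem x h y⟩
    (not_congr (isPlusMinusOne_conj_iff x y))) rfl rfl, fun x y h ↦ ?_⟩
  · simpa [mul_assoc] using hN.conj_mem _ h y⁻¹
  · have hmem : x ∈ quatSubgroup ↔ y ∈ quatSubgroup := by
      rw [← Subgroup.zpowers_le, h, Subgroup.zpowers_le]
    simp only [quatSign, hmem, (isPlusMinusOne_congr h).1]

theorem natCard_ker_det_quat :
    Nat.card (Matrix.GeneralLinearGroup.det : GL (Fin 2) (ZMod 3) →* (ZMod 3)ˣ).ker = 24 ∧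
      Nat.card quatSubgroup = 8 := by
  constructor
  · have h : ∑ x : GL (Fin 2) (ZMod 3),
        (if x 0 0 * x 1 1 - x 0 1 * x 1 0 = 1 then (1 : ℤ) else 0) = 24 :=
      (sum_gl_eq fun a b c d ↦ if a * d - b * c = 1 then 1 else 0).trans (by decide +kernel)
    rw [Finset.sum_boole] at h
    rw [Nat.card_eq_fintype_card, Fintype.card_subtype, ← Nat.cast_inj (R := ℤ), Nat.cast_ofNat, ← h]
    refine congrArg Nat.cast (Finset.card_equiv (Equiv.refl _) fun x ↦ ?_)
    simp only [Finset.mem_filter, Equiv.refl_apply, MonoidHom.mem_ker, det_eq_one_iff]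
  · have h : ∑ x : GL (Fin 2) (ZMod 3),
        (if InQuat (x 0 0) (x 0 1) (x 1 0) (x 1 1) then (1 : ℤ) else 0) = 8 :=
      (sum_gl_eq fun a b c d ↦ if InQuat a b c d then 1 else 0).trans (by decide +kernel)
    rw [Finset.sum_boole] at h
    rw [Nat.card_eq_fintype_card, Fintype.card_subtype, ← Nat.cast_inj (R := ℤ), Nat.cast_ofNat, ← h]
    refine congrArg Nat.cast (Finset.card_equiv (Equiv.refl _) fun x ↦ ?_)
    simp only [Finset.mem_filter, Equiv.refl_apply, mem_quatSubgroup]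

theorem mean_quatSign :
    (∑ x, if x ∈ (Matrix.GeneralLinearGroup.det : GL (Fin 2) (ZMod 3) →* (ZMod 3)ˣ).ker
      then quatSign x else 0) /
      Nat.card (Matrix.GeneralLinearGroup.det : GL (Fin 2) (ZMod 3) →* (ZMod 3)ˣ).ker = 1 / 2 := by
  have h : ∑ x : GL (Fin 2) (ZMod 3), (if x 0 0 * x 1 1 - x 0 1 * x 1 0 = 1 then
      (if InQuat (x 0 0) (x 0 1) (x 1 0) (x 1 1) ∧ ¬ (x 0 1 = 0 ∧ x 1 0 = 0 ∧ x 0 0 = x 1 1)
        then (-1 : ℤ) else 1) else 0) = 12 :=
    (sum_gl_eq fun a b c d ↦ if a * d - b * c = 1 then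
      (if InQuat a b c d ∧ ¬ (b = 0 ∧ c = 0 ∧ a = d) then -1 else 1) else 0).trans
      (by decide +kernel)
  have h' : (∑ x, if x ∈ (Matrix.GeneralLinearGroup.det : GL (Fin 2) (ZMod 3) →* (ZMod 3)ˣ).ker
      then quatSign x else 0) = (12 : ℝ) := by
    rw [show (12 : ℝ) = ((12 : ℤ) : ℝ) by norm_num, ← h, Int.cast_sum]
    refine Finset.sum_congr rfl fun x _ ↦ ?_
    simp only [quatSign, MonoidHom.mem_ker, ← det_eq_one_iff, mem_quatSubgroup,
      isPlusMinusOne_iff]
    split_ifs <;> norm_num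
  rw [h', natCard_ker_det_quat.1]
  norm_num

theorem isPlusMinusOne_cube {x : GL (Fin 2) (ZMod 3)}
    (hdet : Matrix.GeneralLinearGroup.det x = 1) (hx : x ∉ quatSubgroup) :
    IsPlusMinusOne (x ^ 3) := by
  have key : ∀ a b c d : ZMod 3, a * d - b * c = 1 → ¬ InQuat a b c d →
      (a * a + b * c) * b + (a * b + b * d) * d = 0 ∧
      (c * a + d * c) * a + (c * b + d * d) * c = 0 ∧
      (a * a + b * c) * a + (a * b + b * d) * c = (c * a + d * c) * b + (c * b + d * d) * d := by
    decide +kernel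
  rw [isPlusMinusOne_iff, pow_succ, pow_two]
  simp only [Units.val_mul, Matrix.mul_apply, Fin.sum_univ_two]
  exact key _ _ _ _ ((det_eq_one_iff x).mpr hdet) hx

/-- On `Q₈` the trace squared is `4` at the centre and `0` elsewhere. -/
theorem octTrace_sq_of_mem_quat {σ : GalQ} (hσ : ρ σ ∈ quatSubgroup) :
    octTrace ρ σ ^ 2 = if IsPlusMinusOne (ρ σ) then 4 else 0 := by
  have key : ∀ a b c d : ZMod 3, InQuat a b c d → signVal a b c d * normVal a b c d =
      if b = 0 ∧ c = 0 ∧ a = d then 4 else 0 := by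
    decide +kernel
  rw [octTrace, (octRep_trace_det (ρ σ)).2.1, show octSign (ρ σ) * octNormInt (ρ σ) = _ from
    key _ _ _ _ hσ]
  simp only [isPlusMinusOne_iff]
  split_ifs <;> simp

theorem sq_eq_of_add_inv_sq {e : ℂ} (he : e ≠ 0) :
    ((e + e⁻¹) ^ 2 = 4 → e ^ 2 = 1) ∧ ((e + e⁻¹) ^ 2 = 0 → e ^ 2 = -1) := by
  have h1 : e * e⁻¹ = 1 := mul_inv_cancel₀ he
  constructor
  · intro h
    have : (e ^ 2 - 1) ^ 2 = 0 := by
      linear_combination e ^ 2 * h - (2 * e ^ 2 + e * e⁻¹ + 1) * h1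
    exact sub_eq_zero.mp (pow_eq_zero_iff (n := 2) two_ne_zero |>.mp this)
  · intro h
    have : (e ^ 2 + 1) ^ 2 = 0 := by
      linear_combination e ^ 2 * h - (2 * e ^ 2 + e * e⁻¹ + 1) * h1
    exact eq_neg_of_add_eq_zero_left (pow_eq_zero_iff (n := 2) two_ne_zero |>.mp this)

/-- The congruence of a power of a Frobenius element. -/
theorem frobenius_pow_sub_mem {A : ValuationSubring Qbar} {σ : GalQ} {p : ℕ}
    (h : A.IsFrobeniusAt σ p) (k : ℕ) : ∀ x ∈ A, (σ ^ k) x - x ^ p ^ k ∈ A.nonunits := by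
  induction k with
  | zero =>
    intro x hx
    rw [pow_zero, pow_zero, pow_one, AlgEquiv.one_apply, sub_self,
      ← ZeroMemClass.coe_zero A.toSubring, A.coe_mem_nonunits_iff]
    exact zero_mem _
  | succ k ih =>
    intro x hx
    have hσx : σ x ∈ A := decomposition_apply_mem h.mem_decompositionSubgroup hx
    have h1 := ih _ hσx
    have h2 := isFrobeniusAt_sub_mem_nonunits h hx
    have hkx : (σ ^ k) (σ x) ∈ A :=
      decomposition_apply_mem (pow_mem h.mem_decompositionSubgroup k) hσx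
    rw [pow_succ, AlgEquiv.mul_apply, pow_succ', pow_mul]
    set a : A := ⟨(σ ^ k) (σ x), hkx⟩
    set b : A := ⟨σ x, hσx⟩
    set c : A := ⟨x, hx⟩ with hc
    have e1 : a - b ^ p ^ k ∈ IsLocalRing.maximalIdeal A := A.coe_mem_nonunits_iff.mp h1
    have e2 : b - c ^ p ∈ IsLocalRing.maximalIdeal A := A.coe_mem_nonunits_iff.mp h2
    have e3 : a - (c ^ p) ^ p ^ k ∈ IsLocalRing.maximalIdeal A := by
      obtain ⟨d, hd⟩ := sub_dvd_pow_sub_pow b (c ^ p) (p ^ k)
      rw [show a - (c ^ p) ^ p ^ k = (a - b ^ p ^ k) + (b - c ^ p) * d by rw [← hd]; ring]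
      exact add_mem e1 (Ideal.mul_mem_right _ _ e2)
    exact A.coe_mem_nonunits_iff.mpr e3

/-- A multiplicative function trivial on the ray modulo `M` has roots of unity as values at ideals
prime to `M`. -/
theorem exists_pow_eq_one_of_ray {K : Type} [Field K] [NumberField K] {M : ℕ} (hM : M ≠ 0)
    (η : Ideal (𝓞 K) → ℂ)
    (hmul : ∀ I J, IsCoprime I (Ideal.span {(M : 𝓞 K)}) →
      IsCoprime J (Ideal.span {(M : 𝓞 K)}) → η (I * J) = η I * η J)
    (hray : ∀ x : 𝓞 K, x ≠ 0 → x - 1 ∈ Ideal.span {(M : 𝓞 K)} → η (Ideal.span {x}) = 1)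
    {I : Ideal (𝓞 K)} (hI : IsCoprime I (Ideal.span {(M : 𝓞 K)})) (hI0 : I ≠ 0) :
    ∃ n : ℕ, n ≠ 0 ∧ η I ^ n = 1 := by
  have h1 : η 1 = 1 := by
    rw [Ideal.one_eq_top, ← Ideal.span_singleton_one]
    exact hray 1 one_ne_zero (by simp)
  have hpow : ∀ (J : Ideal (𝓞 K)), IsCoprime J (Ideal.span {(M : 𝓞 K)}) → ∀ k : ℕ,
      η (J ^ k) = η J ^ k := by
    intro J hJ k
    induction k with
    | zero => rw [pow_zero, pow_zero, h1]
    | succ k ih => rw [pow_succ, pow_succ, hmul _ _ hJ.pow_left hJ, ih]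
  set I₀ : (Ideal (𝓞 K))⁰ := ⟨I, mem_nonZeroDivisors_of_ne_zero hI0⟩
  have hcl : ClassGroup.mk0 (I₀ ^ Fintype.card (ClassGroup (𝓞 K))) = 1 := by
    rw [map_pow, pow_card_eq_one]
  obtain ⟨x, hx⟩ := (ClassGroup.mk0_eq_one_iff (I₀ ^ Fintype.card (ClassGroup (𝓞 K))).2).mp hcl
  have hx' : I ^ Fintype.card (ClassGroup (𝓞 K)) = Ideal.span {x} := hx
  have hx0 : x ≠ 0 := by
    rintro rfl
    exact pow_ne_zero _ hI0 (hx'.trans (Ideal.span_singleton_eq_bot.mpr rfl))
  have hM0 : Ideal.span {(M : 𝓞 K)} ≠ ⊥ :=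
    Ideal.span_singleton_eq_bot.not.mpr (Nat.cast_ne_zero.mpr hM)
  have : Finite (𝓞 K ⧸ Ideal.span {(M : 𝓞 K)}) := Ring.HasFiniteQuotients.finiteQuotient hM0
  have hcop : IsCoprime (Ideal.span {x}) (Ideal.span {(M : 𝓞 K)}) := hx' ▸ hI.pow_left
  obtain ⟨u, hu, v, hv, huv⟩ := Ideal.isCoprime_iff_exists.mp hcop
  obtain ⟨z, rfl⟩ := Ideal.mem_span_singleton'.mp hu
  have hunit : IsUnit (Ideal.Quotient.mk (Ideal.span {(M : 𝓞 K)}) x) := by
    refine IsUnit.of_mul_eq_one (Ideal.Quotient.mk _ z) ?_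
    rw [← map_mul, ← map_one (Ideal.Quotient.mk (Ideal.span {(M : 𝓞 K)})), Ideal.Quotient.eq,
      show x * z - 1 = -v by linear_combination huv]
    exact neg_mem hv
  set k := Nat.card (𝓞 K ⧸ Ideal.span {(M : 𝓞 K)})ˣ
  have hk : x ^ k - 1 ∈ Ideal.span {(M : 𝓞 K)} := by
    rw [← Ideal.Quotient.eq, map_pow, map_one, ← hunit.unit_spec, ← Units.val_pow_eq_pow_val,
      pow_card_eq_one', Units.val_one]
  refine ⟨Fintype.card (ClassGroup (𝓞 K)) * k, mul_ne_zero Fintype.card_ne_zero Nat.card_pos.ne', ?_⟩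
  rw [← hpow I hI, pow_mul, hx', Ideal.span_singleton_pow]
  exact hray _ (pow_ne_zero _ hx0) hk

theorem natCast_notMem_of_not_dvd {K : Type} [Field K] [NumberField K] {p M : ℕ} (hp : p.Prime)
    (hpM : ¬ p ∣ M) {w : HeightOneSpectrum (𝓞 K)} (hw : (p : 𝓞 K) ∈ w.asIdeal) :
    (M : 𝓞 K) ∉ w.asIdeal :=
  fun h ↦ hpM (Fermat.Agent.Density.natCast_mem_eq hp w.isPrime.ne_top hw h)

theorem isCoprime_span_of_notMem {K : Type} [Field K] [NumberField K] {x : 𝓞 K}
    {w : HeightOneSpectrum (𝓞 K)} (hx : x ∉ w.asIdeal) :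
    IsCoprime w.asIdeal (Ideal.span {x}) := by
  rw [Ideal.isCoprime_iff_sup_eq]
  exact w.isMaximal.1.2 _ (SetLike.lt_iff_le_and_exists.mpr
    ⟨le_sup_left, x, le_sup_right (a := w.asIdeal) (Ideal.mem_span_singleton_self x), hx⟩)

theorem fieldF_le_fieldF' (hρ : IsThreeRep W ρ) : fieldF ≤ fieldF' ρ := by
  refine IntermediateField.fixedField_antitone fun σ hσ ↦ ?_
  have h : InQuat _ _ _ _ := mem_quatSubgroup.mp (Subgroup.mem_comap.mp hσ)
  rw [← comap_ker_det hρ, Subgroup.mem_comap, MonoidHom.mem_ker, ← det_eq_one_iff]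
  exact h.1

theorem finrank_fieldF (hρ : IsThreeRep W ρ) :
    Module.finrank ℚ fieldF = 2 ∧ Module.finrank ℚ (fieldF' ρ) = 6 := by
  have hidx : ∀ U : Subgroup (GL (Fin 2) (ZMod 3)),
      Module.finrank ℚ (IntermediateField.fixedField (U.comap ρ)) * Nat.card U = 48 := by
    intro U
    have : IsGalois ℚ Qbar := by
      have := Fermat.Agent.Density.normal_qbar
      exact ⟨⟩
    have hfix : (IntermediateField.fixedField (U.comap ρ)).fixingSubgroup = U.comap ρ := by
      ext σ
      rw [IntermediateField.mem_fixingSubgroup_iff, Subgroup.mem_comap,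
        ← fixing_iff_mem ρ hρ.factors U σ]
      exact ⟨fun h x ↦ h x x.2, fun h x hx ↦ h ⟨x, hx⟩⟩
    rw [IntermediateField.finrank_eq_fixingSubgroup_index, hfix,
      Subgroup.index_comap_of_surjective U hρ.surjective, Subgroup.index_mul_card, natCard_gl]
  constructor
  · have h := hidx (Matrix.GeneralLinearGroup.det : GL (Fin 2) (ZMod 3) →* (ZMod 3)ˣ).ker
    rw [comap_ker_det hρ, natCard_ker_det_quat.1] at h
    change Module.finrank ℚ (IntermediateField.fixedField kerOmega) = 2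
    omega
  · have h := hidx quatSubgroup
    rw [natCard_ker_det_quat.2] at h
    change Module.finrank ℚ (IntermediateField.fixedField (Subgroup.comap ρ quatSubgroup)) = 6
    omega

/-- **No ray class character of `F'` matches `θ`**: for `η` multiplicative on ideals prime to `M`
and trivial on the ray modulo `M`, there is a place `w` outside any finite set with
`tr θ(Frob_w) ≠ η(w) + η(w)⁻¹`. -/
theorem exists_octTrace_ne_ray (hρ : IsThreeRep W ρ) [NumberField fieldF]
    [NumberField (fieldF' ρ)] {M : ℕ} (hM : M ≠ 0) (η : Ideal (𝓞 (fieldF' ρ)) → ℂ)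
    (hmul : ∀ I J, IsCoprime I (Ideal.span {(M : 𝓞 (fieldF' ρ))}) →
      IsCoprime J (Ideal.span {(M : 𝓞 (fieldF' ρ))}) → η (I * J) = η I * η J)
    (hray : ∀ x : 𝓞 (fieldF' ρ), x ≠ 0 → x - 1 ∈ Ideal.span {(M : 𝓞 (fieldF' ρ))} →
      η (Ideal.span {x}) = 1)
    (T : Finset (HeightOneSpectrum (𝓞 (fieldF' ρ)))) :
    ∃ w ∉ T, (M : 𝓞 (fieldF' ρ)) ∉ w.asIdeal ∧ ∃ σ, IsFrobOver (fieldF' ρ) w.asIdeal σ ∧
      octTrace ρ σ ≠ η w.asIdeal + (η w.asIdeal)⁻¹ := by
  by_contra hno
  push Not at hno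
  set U := (Matrix.GeneralLinearGroup.det : GL (Fin 2) (ZMod 3) →* (ZMod 3)ˣ).ker
  let algF : Algebra fieldF (fieldF' ρ) :=
    (IntermediateField.inclusion (fieldF_le_fieldF' hρ)).toRingHom.toAlgebra
  have : IsScalarTower ℚ fieldF (fieldF' ρ) := IsScalarTower.of_algebraMap_eq fun x ↦
    ((IntermediateField.inclusion (fieldF_le_fieldF' hρ)).commutes x).symm
  have : FiniteDimensional fieldF (fieldF' ρ) := Module.Finite.of_restrictScalars_finite ℚ _ _
  have hdeg : Module.finrank fieldF (fieldF' ρ) = 3 := by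
    have h := Module.finrank_mul_finrank ℚ fieldF (fieldF' ρ)
    rw [(finrank_fieldF hρ).1, (finrank_fieldF hρ).2] at h
    omega
  set ext : Ideal (𝓞 fieldF) → Ideal (𝓞 (fieldF' ρ)) :=
    fun I ↦ I.map (algebraMap (𝓞 fieldF) (𝓞 (fieldF' ρ))) with hext
  have hspanM : ext (Ideal.span {(M : 𝓞 fieldF)}) = Ideal.span {(M : 𝓞 (fieldF' ρ))} := by
    rw [hext]; simp [Ideal.map_span]
  have hextcop : ∀ {I}, IsCoprime I (Ideal.span {(M : 𝓞 fieldF)}) →
      IsCoprime (ext I) (Ideal.span {(M : 𝓞 (fieldF' ρ))}) := fun {I} h ↦ by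
    rw [← hspanM]
    exact h.map (Ideal.mapHom (algebraMap (𝓞 fieldF) (𝓞 (fieldF' ρ))))
  have hext0 : ∀ {I : Ideal (𝓞 fieldF)}, I ≠ 0 → ext I ≠ 0 := fun {I} h ↦
    (Ideal.map_eq_bot_iff_of_injective (FaithfulSMul.algebraMap_injective _ _)).not.mpr h
  have hη1 : η 1 = 1 := by
    rw [Ideal.one_eq_top, ← Ideal.span_singleton_one]
    exact hray 1 one_ne_zero (by simp)
  have hnorm : ∀ {I}, IsCoprime I (Ideal.span {(M : 𝓞 (fieldF' ρ))}) → I ≠ 0 → ‖η I‖ = 1 :=
    fun {I} hI hI0 ↦ by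
      obtain ⟨n, hn, h⟩ := exists_pow_eq_one_of_ray hM η hmul hray hI hI0
      exact Complex.norm_eq_one_of_pow_eq_one h hn
  -- the ray character of `F`
  let ψ : (Ideal (𝓞 fieldF))⁰ →* ℂ :=
    { toFun := fun I ↦ if IsCoprime (I : Ideal (𝓞 fieldF)) (Ideal.span {(M : 𝓞 fieldF)}) then
        η (ext I) ^ 2 else 0
      map_one' := by
        rw [if_pos (by rw [OneMemClass.coe_one]; exact isCoprime_one_left), OneMemClass.coe_one,
          hext]
        simp only [Ideal.one_eq_top, Ideal.map_top]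
        rw [← Ideal.one_eq_top, hη1, one_pow]
      map_mul' := fun I J ↦ by
        simp only [Submonoid.coe_mul]
        by_cases hI : IsCoprime (I : Ideal (𝓞 fieldF)) (Ideal.span {(M : 𝓞 fieldF)})
        · by_cases hJ : IsCoprime (J : Ideal (𝓞 fieldF)) (Ideal.span {(M : 𝓞 fieldF)})
          · rw [if_pos hI, if_pos hJ, if_pos (hI.mul_left hJ), ← mul_pow,
              ← hmul _ _ (hextcop hI) (hextcop hJ), hext]
            simp only [Ideal.map_mul]
          · rw [if_neg hJ, if_neg fun h ↦ hJ h.of_mul_left_right, mul_zero]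
        · rw [if_neg hI, if_neg fun h ↦ hI h.of_mul_left_left, zero_mul] }
  have hψdef : ∀ I : (Ideal (𝓞 fieldF))⁰, ψ I =
      if IsCoprime (I : Ideal (𝓞 fieldF)) (Ideal.span {(M : 𝓞 fieldF)}) then
        η (ext I) ^ 2 else 0 := fun I ↦ rfl
  have hray' : IsRayChar (M : 𝓞 fieldF) ψ := by
    refine ⟨fun I ↦ ?_, fun P hP ↦ ?_, fun I hI ↦ ?_, fun x y hx hy hxy ↦ ?_⟩
    · rw [hψdef]
      split_ifs with hI
      · rw [norm_pow, hnorm (hextcop hI) (hext0 (nonZeroDivisors.coe_ne_zero I)), one_pow]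
      · rw [norm_zero]; exact zero_le_one
    · rw [hψdef, if_neg]
      intro h
      rw [Ideal.isCoprime_iff_sup_eq] at h
      exact P.isPrime.ne_top (top_le_iff.mp (h ▸ sup_le le_rfl
        ((Ideal.span_singleton_le_iff_mem _).mpr hP)))
    · rw [hψdef, if_pos hI]
      refine pow_ne_zero _ fun h0 ↦ ?_
      have := hnorm (hextcop hI) (hext0 (nonZeroDivisors.coe_ne_zero I))
      rw [h0, norm_zero] at this
      exact zero_ne_one this
    · have hiff : IsCoprime (Ideal.span {x}) (Ideal.span {(M : 𝓞 fieldF)}) ↔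
          IsCoprime (Ideal.span {y}) (Ideal.span {(M : 𝓞 fieldF)}) := by
        rw [Ideal.isCoprime_iff_sup_eq, Ideal.isCoprime_iff_sup_eq]
        have hle : ∀ a b : 𝓞 fieldF, a - b ∈ Ideal.span {(M : 𝓞 fieldF)} →
            Ideal.span {a} ⊔ Ideal.span {(M : 𝓞 fieldF)} ≤
              Ideal.span {b} ⊔ Ideal.span {(M : 𝓞 fieldF)} := fun a b hab ↦ by
          refine sup_le ((Ideal.span_singleton_le_iff_mem _).mpr ?_) le_sup_right
          rw [← add_sub_cancel b a]
          exact add_mem (le_sup_left (b := Ideal.span {(M : 𝓞 fieldF)})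
            (Ideal.mem_span_singleton_self b)) (le_sup_right (a := Ideal.span {b}) hab)
        rw [le_antisymm (hle x y hxy) (hle y x (by simpa using neg_mem hxy))]
      rw [hψdef, hψdef]
      simp only [spanIdeal]
      by_cases hxc : IsCoprime (Ideal.span {x}) (Ideal.span {(M : 𝓞 fieldF)})
      · have hyc := hiff.mp hxc
        simp only [hxc, hyc, if_true]
        obtain ⟨u, hu, v, hv, huv⟩ := Ideal.isCoprime_iff_exists.mp hxc
        obtain ⟨z, rfl⟩ := Ideal.mem_span_singleton'.mp hu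
        by_cases hz : z = 0
        · -- then `M` is a unit and the ray condition is empty
          have h1M : (1 : 𝓞 fieldF) ∈ Ideal.span {(M : 𝓞 fieldF)} := by
            rw [← huv, hz, zero_mul, zero_add]; exact hv
          have key : ∀ t : 𝓞 fieldF, t ≠ 0 → η (ext (Ideal.span {t})) = 1 := fun t ht ↦ by
            rw [hext]
            simp only [Ideal.map_span, Set.image_singleton]
            refine hray _ ((map_ne_zero_iff _ (FaithfulSMul.algebraMap_injective _ _)).mpr ht) ?_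
            have h2 := Ideal.mem_map_of_mem (algebraMap (𝓞 fieldF) (𝓞 (fieldF' ρ))) h1M
            rw [map_one] at h2
            change _ ∈ Ideal.span {(M : 𝓞 (fieldF' ρ))}
            rw [← hspanM]
            rw [show ext (Ideal.span {(M : 𝓞 fieldF)}) = ⊤ from (Ideal.eq_top_iff_one _).mpr h2]
            exact Submodule.mem_top
          rw [key x hx, key y hy]
        · have hzc : IsCoprime (Ideal.span {z}) (Ideal.span {(M : 𝓞 fieldF)}) :=
            Ideal.isCoprime_iff_exists.mpr ⟨x * z, Ideal.mul_mem_left _ x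
              (Ideal.mem_span_singleton_self z), v, hv, by linear_combination huv⟩
          have key : ∀ t : 𝓞 fieldF, t ≠ 0 → IsCoprime (Ideal.span {t}) (Ideal.span {(M : 𝓞 fieldF)}) →
              t * z - 1 ∈ Ideal.span {(M : 𝓞 fieldF)} →
              η (ext (Ideal.span {t})) * η (ext (Ideal.span {z})) = 1 := fun t ht htc htz ↦ by
            rw [← hmul _ _ (hextcop htc) (hextcop hzc), hext]
            simp only [Ideal.span_singleton_mul_span_singleton, Ideal.map_span,
              Set.image_singleton]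
            refine hray _ ((map_ne_zero_iff _ (FaithfulSMul.algebraMap_injective _ _)).mpr
              (mul_ne_zero ht hz)) ?_
            have h2 := Ideal.mem_map_of_mem (algebraMap (𝓞 fieldF) (𝓞 (fieldF' ρ))) htz
            rw [map_sub, map_one] at h2
            rw [← hspanM]
            exact h2
          have ex := key x hx hxc (by
            rw [show x * z - 1 = -v by linear_combination huv]; exact neg_mem hv)
          have ey := key y hy hyc (by
            rw [show y * z - 1 = -((x - y) * z) - v by linear_combination huv]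
            exact sub_mem (neg_mem (Ideal.mul_mem_right _ _ hxy)) hv)
          rw [mul_right_cancel₀ (right_ne_zero_of_mul_eq_one ex) (ex.trans ey.symm)]
      · simp only [hxc, mt hiff.mpr hxc, if_false]
  -- its values at good degree one places
  obtain ⟨S₁, hS₁, hfrob⟩ := exists_finite_isFrobOver ρ hρ.factors hρ.surjective fieldF U
    (fixing_fieldF_iff hρ)
  have hN := normal_quatSubgroup
  obtain ⟨S₁', hS₁', hfrob'⟩ := exists_finite_isFrobOver ρ hρ.factors hρ.surjective (fieldF' ρ)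
    quatSubgroup (fixing_iff_mem ρ hρ.factors quatSubgroup)
  obtain ⟨S₂, hS₂, hconj⟩ := exists_finite_isConj_frobLift ρ hρ.factors
  set S₃ : Set ℕ := {p | p.Prime ∧ (p ∣ M ∨ ∃ w ∈ T, (p : 𝓞 (fieldF' ρ)) ∈ w.asIdeal)}
  have hS₃ : S₃.Finite := by
    refine ((M.divisors.finite_toSet).union (T.finite_toSet.biUnion fun w _ ↦
      (Ideal.absNorm w.asIdeal).divisors.finite_toSet)).subset ?_
    rintro p ⟨hp, hpM | ⟨w, hw, hpw⟩⟩
    · exact Or.inl (Finset.mem_coe.mpr (Nat.mem_divisors.mpr ⟨hpM, hM⟩))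
    · refine Or.inr (Set.mem_biUnion hw (Finset.mem_coe.mpr (Nat.mem_divisors.mpr
        ⟨Fermat.Agent.Density.natCast_mem_eq hp w.isPrime.ne_top hpw (Ideal.absNorm_mem _),
          mt Ideal.absNorm_eq_zero_iff.mp w.ne_bot⟩)))
  set S : Set ℕ := S₁ ∪ S₁' ∪ S₂ ∪ S₃
  have hS : S.Finite := ((hS₁.union hS₁').union hS₂).union hS₃
  set g : HeightOneSpectrum (𝓞 fieldF) → ℝ := fun v ↦ (ψ (S14.primeIdeal v)).re
  have hval : ∀ (v : HeightOneSpectrum (𝓞 fieldF)) (p : ℕ), p.Prime →
      Ideal.absNorm v.asIdeal = p → p ∉ S → ∀ A : ValuationSubring Qbar, A.LiesOverPrime p →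
        ∀ σ : GalQ, A.IsFrobeniusAt σ p → ψ (S14.primeIdeal v) = (quatSign (ρ σ) : ℂ) := by
    intro v p hp hv hpS A hA σ hσ
    simp only [S, Set.mem_union, not_or] at hpS
    obtain ⟨⟨⟨hpS₁, hpS₁'⟩, hpS₂⟩, hpS₃⟩ := hpS
    simp only [S₃, Set.mem_ofPred_eq, not_and, not_or, not_exists] at hpS₃
    obtain ⟨hpM, hpT⟩ := hpS₃ hp
    set z := ρ (frobLift p)
    have hzc : ∀ A : ValuationSubring Qbar, A.LiesOverPrime p → ∀ σ : GalQ,
        A.IsFrobeniusAt σ p → ∃ y, y * z * y⁻¹ = ρ σ := fun A hA σ hσ ↦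
      isConj_iff.mp (hconj p hp hpS₂ A hA σ hσ)
    have hquat : ∀ A : ValuationSubring Qbar, A.LiesOverPrime p → ∀ σ : GalQ,
        A.IsFrobeniusAt σ p → (ρ σ ∈ quatSubgroup ↔ z ∈ quatSubgroup) := fun A hA σ hσ ↦ by
      obtain ⟨y, hy⟩ := hzc A hA σ hσ
      rw [← hy]
      exact ⟨fun h ↦ by simpa [mul_assoc] using hN.conj_mem _ h y⁻¹, fun h ↦ hN.conj_mem z h y⟩
    have hpm : ∀ A : ValuationSubring Qbar, A.LiesOverPrime p → ∀ σ : GalQ,
        A.IsFrobeniusAt σ p → (IsPlusMinusOne (ρ σ) ↔ IsPlusMinusOne z) := fun A hA σ hσ ↦ by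
      obtain ⟨y, hy⟩ := hzc A hA σ hσ
      rw [← hy, isPlusMinusOne_conj_iff]
    have hzdet : Matrix.GeneralLinearGroup.det z = 1 := by
      obtain ⟨A₀, σ₀, hA₀, hσ₀, hover⟩ := hfrob v p hp hv hpS₁
      obtain ⟨y, hy⟩ := hzc A₀ hA₀ σ₀ hσ₀
      have h : ρ σ₀ ∈ U := (fixing_fieldF_iff hρ σ₀).mp fun x ↦
        (IntermediateField.mem_fixingSubgroup_iff _ _).mp hover.1 x x.2
      rw [← hy, MonoidHom.mem_ker, map_mul, map_mul, map_inv, mul_inv_cancel_comm] at h
      exact h
    have hgoal : quatSign (ρ σ) = quatSign z := by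
      obtain ⟨y, hy⟩ := hzc A hA σ hσ
      rw [← hy, isRationalClassFun_quatSign.conj]
    have hv0 : (v.asIdeal : Ideal (𝓞 fieldF)) ≠ 0 := v.ne_bot
    have hvc : IsCoprime v.asIdeal (Ideal.span {(M : 𝓞 fieldF)}) := by
      refine isCoprime_span_of_notMem fun h ↦ hpM ?_
      exact Fermat.Agent.Density.natCast_mem_eq hp v.isPrime.ne_top (hv ▸ Ideal.absNorm_mem _) h
    rw [hgoal, hψdef, if_pos (show IsCoprime ((S14.primeIdeal v : (Ideal (𝓞 fieldF))⁰) :
      Ideal (𝓞 fieldF)) _ from hvc)]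
    change η (ext v.asIdeal) ^ 2 = _
    set J := ext v.asIdeal
    have hJ0 : J ≠ 0 := hext0 hv0
    have hJnorm : Ideal.absNorm J = p ^ 3 := by
      rw [← Ideal.absNorm_relNorm (𝓞 fieldF) (𝓞 (fieldF' ρ)) J]
      simp only [J, hext]
      rw [Ideal.relNorm_algebraMap, map_pow, hv,
        ← IsFractionRing.finrank_eq (𝓞 fieldF) fieldF (𝓞 (fieldF' ρ)) (fieldF' ρ), hdeg]
    have hfac : ∀ w ∈ normalizedFactors J, ∃ P : HeightOneSpectrum (𝓞 (fieldF' ρ)),
        P.asIdeal = w ∧ (p : 𝓞 (fieldF' ρ)) ∈ P.asIdeal ∧ P ∉ T ∧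
        (M : 𝓞 (fieldF' ρ)) ∉ P.asIdeal ∧ ∃ k, 1 ≤ k ∧ Ideal.absNorm w = p ^ k := by
      intro w hw
      have hwp := prime_of_normalized_factor w hw
      let P : HeightOneSpectrum (𝓞 (fieldF' ρ)) :=
        ⟨w, Ideal.isPrime_of_prime hwp, hwp.ne_zero⟩
      have hdvd : Ideal.absNorm w ∣ p ^ 3 := hJnorm ▸ Ideal.absNorm_dvd_absNorm_of_le
        (Ideal.dvd_iff_le.mp (dvd_of_mem_normalizedFactors hw))
      obtain ⟨k, -, hk⟩ := (Nat.dvd_prime_pow hp).mp hdvd
      have hk1 : 1 ≤ k := by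
        by_contra h0
        rw [Nat.lt_one_iff.mp (not_le.mp h0), pow_zero, Ideal.absNorm_eq_one_iff] at hk
        exact P.isPrime.ne_top hk
      have hpw : (p : 𝓞 (fieldF' ρ)) ∈ w := by
        have h3 : ((p ^ k : ℕ) : 𝓞 (fieldF' ρ)) ∈ w := hk ▸ Ideal.absNorm_mem w
        rw [Nat.cast_pow] at h3
        exact P.isPrime.mem_of_pow_mem k h3
      exact ⟨P, rfl, hpw, fun hT ↦ hpT P hT hpw, natCast_notMem_of_not_dvd hp hpM (w := P) hpw,
        k, hk1, hk⟩
    have hprodcop : ∀ s : Multiset (Ideal (𝓞 (fieldF' ρ))),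
        (∀ w ∈ s, IsCoprime w (Ideal.span {(M : 𝓞 (fieldF' ρ))})) →
          IsCoprime s.prod (Ideal.span {(M : 𝓞 (fieldF' ρ))}) ∧
          η s.prod = (s.map η).prod := by
      intro s
      induction s using Multiset.induction with
      | empty =>
        intro _
        rw [Multiset.prod_zero, Multiset.map_zero, Multiset.prod_zero]
        exact ⟨isCoprime_one_left, hη1⟩
      | cons a s ih =>
        intro h
        obtain ⟨h1, h2⟩ := ih fun w hw ↦ h w (Multiset.mem_cons_of_mem hw)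
        have ha := h a (Multiset.mem_cons_self a s)
        rw [Multiset.prod_cons, Multiset.map_cons, Multiset.prod_cons]
        exact ⟨ha.mul_left h1, by rw [hmul _ _ ha h1, h2]⟩
    have hprod : (normalizedFactors J).prod = J :=
      associated_iff_eq.mp (prod_normalizedFactors hJ0)
    have hηJ : η J = ((normalizedFactors J).map η).prod := by
      conv_lhs => rw [← hprod]
      refine (hprodcop _ fun w hw ↦ ?_).2
      obtain ⟨P, rfl, -, -, hPM, -⟩ := hfac w hw
      exact isCoprime_span_of_notMem hPM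
    have hnormprod : ((normalizedFactors J).map Ideal.absNorm).prod = p ^ 3 := by
      rw [← map_multiset_prod Ideal.absNorm, hprod, hJnorm]
    by_cases hz : z ∈ quatSubgroup
    · -- split: three factors of norm `p`
      have hdeg1 : ∀ w ∈ normalizedFactors J, Ideal.absNorm w = p ∧
          η w ^ 2 = (quatSign z : ℂ) := by
        intro w hw
        obtain ⟨P, rfl, hpw, hPT, hPM, k, hk1, hk⟩ := hfac w hw
        obtain ⟨B, hB, hBw⟩ := exists_levelPlaceIdeal_eq (fieldF' ρ) hp P.asIdeal hpw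
        obtain ⟨τ, hτ⟩ := Galois.exists_isFrobeniusAt hB hp
        have hτq := (hquat B hB τ hτ).mpr hz
        have hτfix : ∀ x : fieldF' ρ, τ (x : Qbar) = x :=
          (fixing_iff_mem ρ hρ.factors quatSubgroup τ).mpr hτq
        have hN1 : Ideal.absNorm P.asIdeal = p := by
          have : Finite (𝓞 (fieldF' ρ) ⧸ P.asIdeal) :=
            Ring.HasFiniteQuotients.finiteQuotient P.ne_bot
          have hle : Nat.card (𝓞 (fieldF' ρ) ⧸ P.asIdeal) ≤ p := by
            refine Fermat.Agent.Density.natCard_le_of_forall_pow_eq hp.one_lt fun a ↦ ?_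
            obtain ⟨x, rfl⟩ := Ideal.Quotient.mk_surjective a
            rw [← map_pow, Ideal.Quotient.eq, ← neg_mem_iff, neg_sub, ← hBw,
              mem_levelPlaceIdeal_iff]
            have h := isFrobeniusAt_sub_mem_nonunits hτ
              (levelIntegerHom_mem (fieldF' ρ) B x)
            rw [show τ (levelIntegerHom (fieldF' ρ) x) = levelIntegerHom (fieldF' ρ) x from
              hτfix (x : fieldF' ρ)] at h
            exact h
          rw [← Submodule.cardQuot_apply, ← Ideal.absNorm_apply, hk] at hle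
          rw [hk]
          exact le_antisymm hle (Nat.le_self_pow (by omega) p)
        refine ⟨hN1, ?_⟩
        have hover : IsFrobOver (fieldF' ρ) P.asIdeal τ := by
          refine ⟨(IntermediateField.mem_fixingSubgroup_iff _ _).mpr fun x hx ↦ hτfix ⟨x, hx⟩,
            B, fun x ↦ by rw [← hBw, mem_levelPlaceIdeal_iff], hτ.mem_decompositionSubgroup,
            fun x hx ↦ ?_⟩
          rw [← Submodule.cardQuot_apply, ← Ideal.absNorm_apply, hN1]
          exact isFrobeniusAt_sub_mem_nonunits hτ hx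
        have he : η P.asIdeal ≠ 0 := fun h0 ↦ by
          have := hnorm (isCoprime_span_of_notMem hPM) P.ne_bot
          rw [h0, norm_zero] at this
          exact zero_ne_one this
        have htr := octTrace_sq_of_mem_quat hτq
        rw [hno P hPT hPM τ hover] at htr
        by_cases hpz : IsPlusMinusOne z
        · rw [if_pos ((hpm B hB τ hτ).mpr hpz)] at htr
          rw [(sq_eq_of_add_inv_sq he).1 htr, quatSign, if_neg fun h ↦ h.2 hpz,
            Complex.ofReal_one]
        · rw [if_neg (fun h ↦ hpz ((hpm B hB τ hτ).mp h))] at htr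
          rw [(sq_eq_of_add_inv_sq he).2 htr, quatSign, if_pos ⟨hz, hpz⟩]
          simp
      have hcard : (normalizedFactors J).card = 3 := by
        rw [Multiset.map_congr rfl fun w hw ↦ (hdeg1 w hw).1, Multiset.map_const',
          Multiset.prod_replicate] at hnormprod
        exact Nat.pow_right_injective hp.two_le hnormprod
      rw [hηJ, ← Multiset.prod_map_pow, Multiset.map_congr rfl fun w hw ↦ (hdeg1 w hw).2,
        Multiset.map_const', Multiset.prod_replicate, hcard]
      simp only [quatSign]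
      split_ifs <;> norm_num
    · -- inert: one factor of norm `p ^ 3`
      have hk2 : ∀ w ∈ normalizedFactors J, ∃ k, 2 ≤ k ∧ Ideal.absNorm w = p ^ k := by
        intro w hw
        obtain ⟨P, rfl, hpw, hPT, hPM, k, hk1, hk⟩ := hfac w hw
        refine ⟨k, ?_, hk⟩
        by_contra h2
        rw [show k = 1 by omega, pow_one] at hk
        obtain ⟨B, τ, hB, hτ, hover⟩ := hfrob' P p hp hk hpS₁'
        exact hz ((hquat B hB τ hτ).mp ((fixing_iff_mem ρ hρ.factors quatSubgroup τ).mp fun x ↦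
          (IntermediateField.mem_fixingSubgroup_iff _ _).mp hover.1 x x.2))
      have hlb : ∀ s : Multiset (Ideal (𝓞 (fieldF' ρ))),
          (∀ w ∈ s, ∃ k, 2 ≤ k ∧ Ideal.absNorm w = p ^ k) →
            p ^ (2 * s.card) ∣ (s.map Ideal.absNorm).prod := by
        intro s
        induction s using Multiset.induction with
        | empty => simp
        | cons a s ih =>
          intro h
          obtain ⟨k, hk, ha⟩ := h a (Multiset.mem_cons_self a s)
          rw [Multiset.card_cons, Multiset.map_cons, Multiset.prod_cons, mul_add, mul_one,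
            pow_add, mul_comm]
          exact mul_dvd_mul (ha ▸ pow_dvd_pow p hk)
            (ih fun w hw ↦ h w (Multiset.mem_cons_of_mem hw))
      have hc : 2 * (normalizedFactors J).card ≤ 3 :=
        (Nat.pow_dvd_pow_iff_le_right hp.one_lt).mp (hnormprod ▸ hlb _ hk2)
      have hc0 : (normalizedFactors J).card ≠ 0 := fun h0 ↦ by
        rw [Multiset.card_eq_zero.mp h0, Multiset.map_zero, Multiset.prod_zero] at hnormprod
        exact (Nat.one_lt_pow three_ne_zero hp.one_lt).ne hnormprod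
      obtain ⟨w, hw⟩ := Multiset.card_eq_one.mp (show (normalizedFactors J).card = 1 by omega)
      obtain ⟨P, hPw, hpw, hPT, hPM, -⟩ := hfac w (by rw [hw]; exact Multiset.mem_singleton_self w)
      subst hPw
      have hJP : J = P.asIdeal := by rw [← hprod, hw, Multiset.prod_singleton]
      obtain ⟨B, hB, hBw⟩ := exists_levelPlaceIdeal_eq (fieldF' ρ) hp P.asIdeal hpw
      obtain ⟨τ, hτ⟩ := Galois.exists_isFrobeniusAt hB hp
      obtain ⟨y, hy⟩ := hzc B hB τ hτ
      have hcube : IsPlusMinusOne (ρ (τ ^ 3)) := by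
        rw [map_pow, ← hy, conj_pow, isPlusMinusOne_conj_iff]
        exact isPlusMinusOne_cube hzdet hz
      have hmemq : ρ (τ ^ 3) ∈ quatSubgroup := by
        rw [mem_quatSubgroup]
        rcases hcube with h | h <;> rw [h] <;>
          simp [InQuat, Units.val_neg, Matrix.neg_apply]
      have hover : IsFrobOver (fieldF' ρ) P.asIdeal (τ ^ 3) := by
        refine ⟨(IntermediateField.mem_fixingSubgroup_iff _ _).mpr fun x hx ↦
          (fixing_iff_mem ρ hρ.factors quatSubgroup _).mpr hmemq ⟨x, hx⟩,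
          B, fun x ↦ by rw [← hBw, mem_levelPlaceIdeal_iff],
          pow_mem hτ.mem_decompositionSubgroup 3, fun x hx ↦ ?_⟩
        rw [← Submodule.cardQuot_apply, ← Ideal.absNorm_apply, ← hJP, hJnorm]
        exact frobenius_pow_sub_mem hτ 3 x hx
      have he : η P.asIdeal ≠ 0 := fun h0 ↦ by
        have := hnorm (isCoprime_span_of_notMem hPM) P.ne_bot
        rw [h0, norm_zero] at this
        exact zero_ne_one this
      have htr := octTrace_sq_of_mem_quat hmemq
      rw [hno P hPT hPM _ hover, if_pos hcube] at htr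
      rw [hJP, (sq_eq_of_add_inv_sq he).1 htr, quatSign, if_neg fun h ↦ hz h.1, Complex.ofReal_one]
  have hgB : ∀ v, |g v| ≤ 1 := fun v ↦
    (Complex.abs_re_le_norm _).trans (hray'.norm_le _)
  obtain ⟨C, hC⟩ := exists_abs_placeSum_sub_le ρ fieldF.val U hρ.factors hρ.surjective
    (fixing_fieldF_iff hρ) isRationalClassFun_quatSign g hgB hS fun v p hp hv hpS A hA σ hσ ↦ by
      simp only [g, hval v p hp hv hpS A hA σ hσ, Complex.ofReal_re]
  have hC0 : ∀ s : ℝ, 1 < s → s ≤ 2 →
      |(∑' v : HeightOneSpectrum (𝓞 fieldF), g v * (Ideal.absNorm v.asIdeal : ℝ) ^ (-s)) -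
        1 / 2 * Real.log (1 / (s - 1))| ≤ C := fun s hs hs2 ↦ by
    refine le_of_eq_of_le ?_ (hC s hs hs2).2
    rw [← mean_quatSign]
    congr!
  by_cases htriv : ∀ I, ψ I ≠ 0 → ψ I = 1
  · obtain ⟨C', hC'⟩ := exists_abs_placeSum_sub_le ρ fieldF.val U hρ.factors hρ.surjective
      (fixing_fieldF_iff hρ) (IsRationalClassFun.const 1) g hgB hS fun v p hp hv hpS A hA σ hσ ↦ by
        have h := hval v p hp hv hpS A hA σ hσ
        have hne : ψ (S14.primeIdeal v) ≠ 0 := by
          rw [h]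
          simp only [quatSign]
          split_ifs <;> norm_num
        simp only [g, htriv _ hne, Complex.one_re]
    refine absurd (S14.Cross.coeff_le_of_log (a := (1 : ℝ)) (b := 1 / 2) (C := C + C')
      fun s hs hs2 ↦ ?_) (by norm_num)
    have e1 := abs_le.mp (hC0 s hs hs2)
    have hm : (∑ x, if x ∈ U then (1 : ℝ) else 0) / Nat.card U = 1 := by
      rw [Finset.sum_boole, ← Fintype.card_subtype, ← Nat.card_eq_fintype_card]
      exact div_self (Nat.cast_ne_zero.mpr Nat.card_pos.ne')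
    have e0 : |(∑' v : HeightOneSpectrum (𝓞 fieldF), g v * (Ideal.absNorm v.asIdeal : ℝ) ^ (-s)) -
        1 * Real.log (1 / (s - 1))| ≤ C' := by
      refine le_of_eq_of_le ?_ (hC' s hs hs2).2
      congr 3
      convert hm.symm using 6
    have e2 := abs_le.mp e0
    linarith [e1.2, e2.1]
  · push Not at htriv
    obtain ⟨I, hI⟩ := htriv
    obtain ⟨C', hC'⟩ := exists_rayPrimeSum_le hray' (Nat.cast_ne_zero.mpr hM) ⟨I, hI.1, hI.2⟩
    refine absurd (S14.Cross.coeff_le_of_log (a := (1 / 2 : ℝ)) (b := 0) (C := C + C')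
      fun s hs hs2 ↦ ?_) (by norm_num)
    have e1 := abs_le.mp (hC0 s hs hs2)
    have e2 : (∑' v : HeightOneSpectrum (𝓞 fieldF),
        g v * (Ideal.absNorm v.asIdeal : ℝ) ^ (-s)) ≤ C' := hC' s hs hs2
    linarith [e1.1]

end Fermat.Agent.LT.Density
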