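import Fermat.Agent.LT.Density.Oct
import Fermat.Agent.DS.PrimeDensity

/-!
# The density inputs with an exceptional set of density zero, and lower bound forms
-/

set_option autoImplicit false

noncomputable section

namespace Fermat.Agent.LT.Density

open NumberField IsDedekindDomain Fermat.Agent.Galois
open scoped MatrixGroups Classical Topology

variable {W : WeierstrassCurve ℤ} {ρ : GalQ →* GL (Fin 2) (ZMod 3)}

/-- Changing bounded coefficients on a set of density zero changes the prime series by `O(1)`. -/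
theorem exists_abs_tsum_sub_le_of_densityZero {a b : ℕ → ℝ} {B : ℝ} {X : Set ℕ}
    (hX : DS.PrimeDensityLE X 0) (ha : ∀ p : ℕ, p.Prime → |a p - b p| ≤ B)
    (hab : ∀ p : ℕ, p.Prime → p ∉ X → a p = b p) :
    ∃ C : ℝ, ∀ s : ℝ, 1 < s → s ≤ 2 →
      Summable (fun p : Nat.Primes ↦ (a p - b p) * ((p : ℕ) : ℝ) ^ (-s)) ∧
      |∑' p : Nat.Primes, (a p - b p) * ((p : ℕ) : ℝ) ^ (-s)| ≤ C := by
  obtain ⟨C, hC⟩ := hX
  refine ⟨|B| * C, fun s hs hs2 ↦ ?_⟩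
  set t : Nat.Primes → ℝ := fun p ↦ if (p : ℕ) ∈ X then ((p : ℕ) : ℝ) ^ (-s) else 0
  have ht0 : ∀ p, 0 ≤ t p := fun p ↦ by
    simp only [t]; split_ifs; exacts [Real.rpow_nonneg (Nat.cast_nonneg _) _, le_rfl]
  have hbd : ∀ T : Finset Nat.Primes, ∑ p ∈ T, t p ≤ C := fun T ↦ by
    simp only [t, ← Finset.sum_filter]
    have h := hC s hs hs2 ((T.filter fun p : Nat.Primes ↦ (p : ℕ) ∈ X).map
      ⟨fun p : Nat.Primes ↦ (p : ℕ), fun _ _ h ↦ Subtype.ext h⟩) fun n hn ↦ by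
        obtain ⟨p, hp, rfl⟩ := Finset.mem_map.1 hn
        exact ⟨p.2, (Finset.mem_filter.1 hp).2⟩
    simpa [Finset.sum_map] using h
  have hts : Summable t := summable_of_sum_le ht0 hbd
  have hle : ∀ p : Nat.Primes, ‖(a p - b p) * ((p : ℕ) : ℝ) ^ (-s)‖ ≤ |B| * t p := fun p ↦ by
    by_cases hp : (p : ℕ) ∈ X
    · simp only [t, if_pos hp]
      rw [norm_mul, Real.norm_eq_abs, Real.norm_of_nonneg (Real.rpow_nonneg (Nat.cast_nonneg _) _)]
      exact mul_le_mul_of_nonneg_right ((ha p p.2).trans (le_abs_self B))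
        (Real.rpow_nonneg (Nat.cast_nonneg _) _)
    · rw [hab p p.2 hp, sub_self, zero_mul, norm_zero]
      exact mul_nonneg (abs_nonneg B) (ht0 p)
  refine ⟨Summable.of_norm_bounded (hts.mul_left |B|) hle, ?_⟩
  rw [← Real.norm_eq_abs]
  refine (tsum_of_norm_bounded (hts.mul_left |B|).hasSum hle).trans ?_
  rw [tsum_mul_left]
  exact mul_le_mul_of_nonneg_left (Real.tsum_le_of_sum_le ht0 hbd) (abs_nonneg B)

/-- `∑_p a_p p^(-s) = log (1/(s-1)) + O(1)` when the bounded `a_p` agree with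
`tr (Sym² θ ⊕ 1)(Frob_p)` off a set of density zero. -/
theorem exists_abs_sum_sub_le_of_eq_octSym (hρ : IsThreeRep W ρ) (a : ℕ → ℝ) {B : ℝ}
    (hB : ∀ p : ℕ, p.Prime → |a p| ≤ B) {X : Set ℕ} (hX : DS.PrimeDensityLE X 0)
    (ha : ∀ p : ℕ, p.Prime → p ∉ X → ∀ A : ValuationSubring Qbar, A.LiesOverPrime p →
      ∀ σ : GalQ, A.IsFrobeniusAt σ p → a p = octSym (ρ σ)) :
    ∃ C : ℝ, ∀ s : ℝ, 1 < s → s ≤ 2 →
      Summable (fun p : Nat.Primes ↦ a p * ((p : ℕ) : ℝ) ^ (-s)) ∧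
      |(∑' p : Nat.Primes, a p * ((p : ℕ) : ℝ) ^ (-s)) - Real.log (1 / (s - 1))| ≤ C := by
  obtain ⟨S, hS, hconj⟩ := exists_finite_isConj_frobLift ρ hρ.factors
  set b : ℕ → ℝ := fun p ↦ octSym (ρ (frobLift p))
  have hb : ∀ p : ℕ, p.Prime → p ∉ S → ∀ A : ValuationSubring Qbar, A.LiesOverPrime p →
      ∀ σ : GalQ, A.IsFrobeniusAt σ p → b p = octSym (ρ σ) := fun p hp hpS A hA σ hσ ↦ by
    obtain ⟨c, hc⟩ := isConj_iff.1 (hconj p hp hpS A hA σ hσ)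
    rw [← hc, isRationalClassFun_octSym.conj]
  obtain ⟨C, hC⟩ := exists_abs_frobSum_sub_le ρ hρ.factors hρ.surjective isRationalClassFun_octSym
    b hS hb
  set M : ℝ := ∑ x, |octSym x|
  obtain ⟨C', hC'⟩ := exists_abs_tsum_sub_le_of_densityZero (a := a) (b := b) (B := B + M) hX
    (fun p hp ↦ (abs_sub _ _).trans (add_le_add (hB p hp)
      (Finset.single_le_sum (f := fun x ↦ |octSym x|) (fun x _ ↦ abs_nonneg _) (by simp))))
    fun p hp hpX ↦ by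
      obtain ⟨A, hA, hσ⟩ := exists_frobLift_spec hp
      exact ha p hp hpX A hA _ hσ
  refine ⟨C + C', fun s hs hs2 ↦ ?_⟩
  obtain ⟨h1, h2⟩ := hC s hs hs2
  rw [mean_octSym, one_mul] at h2
  obtain ⟨h3, h4⟩ := hC' s hs hs2
  have he : (fun p : Nat.Primes ↦ a p * ((p : ℕ) : ℝ) ^ (-s)) = fun p : Nat.Primes ↦
      b p * ((p : ℕ) : ℝ) ^ (-s) + (a p - b p) * ((p : ℕ) : ℝ) ^ (-s) := funext fun p ↦ by ring
  rw [he]
  refine ⟨h1.add h3, ?_⟩
  rw [h1.tsum_add h3, add_sub_right_comm]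
  exact (abs_add_le _ _).trans (add_le_add h2 h4)

/-- The lower bound over `F` in the form consumed by the pinning lemma. -/
theorem exists_eventually_le_octPlaceSum_fieldF (hρ : IsThreeRep W ρ) [NumberField fieldF]
    (g : HeightOneSpectrum (𝓞 fieldF) → ℝ) {B : ℝ} (hgB : ∀ v, |g v| ≤ B)
    {S : Set ℕ} (hS : S.Finite)
    (hg : ∀ (v : HeightOneSpectrum (𝓞 fieldF)) (p : ℕ), p.Prime → Ideal.absNorm v.asIdeal = p →
      p ∉ S → ∀ σ : GalQ, IsFrobOver fieldF v.asIdeal σ → g v = Complex.normSq (octTrace ρ σ)) :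
    ∃ B' : ℝ, ∀ᶠ s in 𝓝[>] (1 : ℝ), -Real.log (s - 1) - B' ≤
      ∑' v : HeightOneSpectrum (𝓞 fieldF), g v * (Ideal.absNorm v.asIdeal : ℝ) ^ (-s) := by
  obtain ⟨C, hC⟩ := exists_abs_octPlaceSum_fieldF_sub_le hρ g hgB hS hg
  refine ⟨C, ?_⟩
  filter_upwards [Ioo_mem_nhdsGT (show (1 : ℝ) < 2 by norm_num)] with s hs
  have h := (abs_le.1 (hC s hs.1 hs.2.le).2).1
  rw [one_div, Real.log_inv] at h
  linarith

end Fermat.Agent.LT.Density
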