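import Fermat.Agent.LT.Density.Level
import Fermat.Agent.Galois.Unramified
import Fermat.Agent.DS.Defs

/-!
# Frobenius density with bounded error for rational class functions of a finite Galois image

For `ρ : GalQ →* G` of finite level and surjective, and a class function `f` constant on the
generators of each cyclic subgroup: `∑_p f (ρ Frob_p) p ^ (-s) = mean f · log (1/(s-1)) + O(1)`.
-/

set_option autoImplicit false

noncomputable section

namespace Fermat.Agent.LT.Density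

open NumberField Fermat.Agent.Density
open Fermat.Agent.DS (GalQ)
open scoped Classical

attribute [local instance] Density.normal_qbar

variable {G : Type} [Group G]

/-- A Galois level through which `ρ` factors, containing a given finite extension. -/
theorem exists_factor_level (ρ : GalQ →* G) (hfac : GaloisFactorsThroughFiniteLevel ρ)
    (W : IntermediateField ℚ (AlgebraicClosure ℚ)) [FiniteDimensional ℚ W] :
    ∃ (L : IntermediateField ℚ (AlgebraicClosure ℚ)) (_ : FiniteDimensional ℚ L) (_ : Normal ℚ L)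
      (_ : NumberField L) (π : (L ≃ₐ[ℚ] L) →* G),
      W ≤ L ∧ ∀ σ : GalQ, ρ σ = π (σ.restrictNormal L) := by
  obtain ⟨L₀, hL₀, hρ⟩ := hfac
  let L₁ : IntermediateField ℚ (AlgebraicClosure ℚ) := L₀ ⊔ W
  have : FiniteDimensional ℚ L₁ := IntermediateField.finiteDimensional_sup _ _
  let L := IntermediateField.normalClosure ℚ L₁ (AlgebraicClosure ℚ)
  have : Normal ℚ L := normalClosure.normal ℚ _ _
  have : NumberField L := NumberField.of_module_finite ℚ L
  have hrs : Function.Surjective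
      (AlgEquiv.restrictNormalHom (F := ℚ) (K₁ := AlgebraicClosure ℚ) L) :=
    AlgEquiv.restrictNormalHom_surjective _
  have hker : (AlgEquiv.restrictNormalHom L).ker ≤ ρ.ker := fun σ hσ ↦ hρ σ fun x hx ↦ by
    have h1 := AlgEquiv.restrictNormal_commutes σ L
      ⟨x, IntermediateField.le_normalClosure L₁ ((le_sup_left : L₀ ≤ L₁) hx)⟩
    rw [show σ.restrictNormal L = 1 from hσ] at h1
    exact h1.symm
  let π : (L ≃ₐ[ℚ] L) →* G := MonoidHom.liftOfSurjective _ hrs ⟨ρ, hker⟩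
  have hπ : ∀ σ : GalQ, π (σ.restrictNormal L) = ρ σ :=
    MonoidHom.liftOfRightInverse_comp_apply _ _ _ _
  exact ⟨L, inferInstance, inferInstance, inferInstance, π,
    (le_sup_right : W ≤ L₁).trans (IntermediateField.le_normalClosure L₁), fun σ ↦ (hπ σ).symm⟩

/-- A chosen Frobenius element at `p` (the identity if `p` is not prime). -/
def frobLift (p : ℕ) : GalQ :=
  if h : p.Prime then (Galois.exists_place_isFrobeniusAt h).choose_spec.choose else 1

theorem exists_frobLift_spec {p : ℕ} (hp : p.Prime) :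
    ∃ A : ValuationSubring (AlgebraicClosure ℚ),
      A.LiesOverPrime p ∧ A.IsFrobeniusAt (frobLift p) p := by
  rw [frobLift, dif_pos hp]
  exact ⟨_, (Galois.exists_place_isFrobeniusAt hp).choose_spec.choose_spec⟩

/-- Outside a finite set of primes all Frobenius elements have conjugate images. -/
theorem exists_finite_isConj_frobLift (ρ : GalQ →* G) (hfac : GaloisFactorsThroughFiniteLevel ρ) :
    ∃ S : Set ℕ, S.Finite ∧ ∀ p : ℕ, p.Prime → p ∉ S →
      ∀ A : ValuationSubring (AlgebraicClosure ℚ), A.LiesOverPrime p →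
        ∀ σ : GalQ, A.IsFrobeniusAt σ p → IsConj (ρ (frobLift p)) (ρ σ) := by
  obtain ⟨L, _, _, _, π, -, hπ⟩ := exists_factor_level ρ hfac ⊥
  have : IsGalois ℚ L := ⟨⟩
  refine ⟨{p | p.Prime ∧ ¬ Separated L p}, finite_not_separated L, fun p hp hpS A hA σ hσ ↦ ?_⟩
  have hsep : Separated L p := not_not.1 fun h ↦ hpS ⟨hp, h⟩
  obtain ⟨A₀, hA₀, hσ₀⟩ := exists_frobLift_spec hp
  obtain ⟨y, hy⟩ := DS.exists_conj_eq hp hsep
    (DS.isFrobAt_restrictNormal (L := L) hA₀ hσ₀) (DS.isFrobAt_restrictNormal hA hσ)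
  rw [hπ, hπ, hy, map_mul, map_mul, map_inv]
  exact isConj_iff.2 ⟨π y, rfl⟩

variable [Fintype G]

/-- Averaging over a surjection. -/
theorem sum_comp_div_card {Γ : Type*} [Group Γ] [Fintype Γ] {π : Γ →* G}
    (hπ : Function.Surjective π) (f : G → ℝ) :
    (∑ x, f (π x)) / Nat.card Γ = (∑ g, f g) / Nat.card G := by
  have h : (Nat.card G : ℝ) * ∑ x, f (π x) = Nat.card Γ * ∑ g, f g := by
    calc (Nat.card G : ℝ) * ∑ x, f (π x) = ∑ g : G, ∑ x, f (π x * g) := by
          have hg : ∀ g, ∑ x, f (π x * g) = ∑ x, f (π x) := fun g ↦ by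
            obtain ⟨y, rfl⟩ := hπ g
            simp only [← map_mul]
            exact Equiv.sum_comp (Equiv.mulRight y) fun x ↦ f (π x)
          simp [hg, Nat.card_eq_fintype_card]
      _ = ∑ x, ∑ g, f (π x * g) := Finset.sum_comm
      _ = _ := by
          have hx : ∀ x, ∑ g, f (π x * g) = ∑ g, f g :=
            fun x ↦ Equiv.sum_comp (Equiv.mulLeft (π x)) f
          simp [hx, Nat.card_eq_fintype_card]
  rw [div_eq_div_iff (Nat.cast_ne_zero.2 Nat.card_pos.ne') (Nat.cast_ne_zero.2 Nat.card_pos.ne')]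
  linarith

/-- **Chebotarev for rational class functions, with bounded error**:
`∑_p f (ρ Frob_p) p ^ (-s) = (mean f) log (1 / (s - 1)) + O(1)` on `1 < s ≤ 2`. -/
theorem exists_abs_frobSum_sub_le (ρ : GalQ →* G) (hfac : GaloisFactorsThroughFiniteLevel ρ)
    (hsurj : Function.Surjective ρ) {f : G → ℝ} (hf : IsRationalClassFun f) (a : ℕ → ℝ)
    {S : Set ℕ} (hS : S.Finite)
    (ha : ∀ p : ℕ, p.Prime → p ∉ S → ∀ A : ValuationSubring (AlgebraicClosure ℚ),
      A.LiesOverPrime p → ∀ σ : GalQ, A.IsFrobeniusAt σ p → a p = f (ρ σ)) :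
    ∃ C : ℝ, ∀ s : ℝ, 1 < s → s ≤ 2 →
      Summable (fun p : Nat.Primes ↦ a p * ((p : ℕ) : ℝ) ^ (-s)) ∧
      |(∑' p : Nat.Primes, a p * ((p : ℕ) : ℝ) ^ (-s)) -
        (∑ g, f g) / Nat.card G * Real.log (1 / (s - 1))| ≤ C := by
  obtain ⟨L, _, _, _, π, -, hπ⟩ := exists_factor_level ρ hfac ⊥
  have : IsGalois ℚ L := ⟨⟩
  have hπs : Function.Surjective π := fun g ↦ by
    obtain ⟨σ, rfl⟩ := hsurj g
    exact ⟨_, (hπ σ).symm⟩
  obtain ⟨C, hC⟩ := exists_abs_levelSum_sub_le (hf.comp π)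
  set U : Finset Nat.Primes :=
    ((finite_not_separated L).union hS).toFinset.subtype Nat.Prime
  set e : Nat.Primes → ℝ := fun p ↦ a p - f (π (levelFrob L p)) with he
  have he0 : ∀ p : Nat.Primes, p ∉ U → e p = 0 := fun p hp ↦ by
    have hU : ¬((p : ℕ) ∈ {p : ℕ | p.Prime ∧ ¬ Separated L p} ∪ S) := fun h ↦
      hp (Finset.mem_subtype.2 ((Set.Finite.mem_toFinset _).2 h))
    rw [Set.mem_union, not_or] at hU
    have hsep : Separated L (p : ℕ) := not_not.1 fun h ↦ hU.1 ⟨p.2, h⟩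
    obtain ⟨A, hA, hσ⟩ := exists_frobLift_spec p.2
    obtain ⟨Q, hQ⟩ := exists_isFrobAt_levelFrob L p
    obtain ⟨y, hy⟩ := DS.exists_conj_eq p.2 hsep (DS.isFrobAt_restrictNormal (L := L) hA hσ) hQ
    simp only [he]
    rw [ha p p.2 hU.2 A hA _ hσ, hπ, hy, map_mul, map_mul, map_inv, hf.conj, sub_self]
  have hbd : ∀ p, |f (π (levelFrob L p))| ≤ ∑ g, |f g| := fun p ↦
    Finset.single_le_sum (f := fun g ↦ |f g|) (fun g _ ↦ abs_nonneg _) (Finset.mem_univ _)
  refine ⟨C + ∑ p ∈ U, |e p|, fun s hs hs2 ↦ ?_⟩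
  have h1 := summable_mul_rpow (a := fun p ↦ f (π (levelFrob L p))) hbd hs
  have h2 : Summable fun p : Nat.Primes ↦ e p * ((p : ℕ) : ℝ) ^ (-s) :=
    summable_of_ne_finset_zero (s := U) fun p hp ↦ by rw [he0 p hp, zero_mul]
  have h3 : (fun p : Nat.Primes ↦ a p * ((p : ℕ) : ℝ) ^ (-s)) = fun p ↦
      f (π (levelFrob L p)) * ((p : ℕ) : ℝ) ^ (-s) + e p * ((p : ℕ) : ℝ) ^ (-s) :=
    funext fun p ↦ by simp only [he]; ring
  have hmean : (∑ x : L ≃ₐ[ℚ] L, f (π x)) / Nat.card (L ≃ₐ[ℚ] L) = (∑ g, f g) / Nat.card G :=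
    sum_comp_div_card hπs f
  have h4 := hC s hs hs2
  rw [hmean] at h4
  rw [h3]
  refine ⟨h1.add h2, ?_⟩
  rw [h1.tsum_add h2, add_sub_right_comm]
  refine (abs_add_le _ _).trans (add_le_add h4 ?_)
  rw [tsum_eq_sum (s := U) fun p hp ↦ by rw [he0 p hp, zero_mul]]
  refine (Finset.abs_sum_le_sum_abs _ _).trans (Finset.sum_le_sum fun p _ ↦ ?_)
  rw [abs_mul, abs_of_nonneg (Real.rpow_nonneg (Nat.cast_nonneg _) _)]
  exact mul_le_of_le_one_right (abs_nonneg _)
    (Real.rpow_le_one_of_one_le_of_nonpos (Nat.one_le_cast.2 p.2.one_le) (by linarith))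

/-- The primes with trivial Frobenius image have density `1 / #G`, with bounded error. -/
theorem exists_abs_splitSum_sub_le (ρ : GalQ →* G) (hfac : GaloisFactorsThroughFiniteLevel ρ)
    (hsurj : Function.Surjective ρ) :
    ∃ C : ℝ, ∀ s : ℝ, 1 < s → s ≤ 2 →
      |(∑' p : Nat.Primes, (if ρ (frobLift p) = 1 then (1 : ℝ) else 0) * ((p : ℕ) : ℝ) ^ (-s)) -
        1 / Nat.card G * Real.log (1 / (s - 1))| ≤ C := by
  obtain ⟨S, hS, hconj⟩ := exists_finite_isConj_frobLift ρ hfac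
  obtain ⟨C, hC⟩ := exists_abs_frobSum_sub_le ρ hfac hsurj (IsRationalClassFun.indicator ⊥)
    (fun p ↦ if ρ (frobLift p) = 1 then 1 else 0) hS fun p hp hpS A hA σ hσ ↦ by
      refine if_congr ?_ rfl rfl
      rw [Subgroup.mem_bot]
      have hc := hconj p hp hpS A hA σ hσ
      exact ⟨fun h ↦ isConj_one_right.1 (h ▸ hc), fun h ↦ isConj_one_left.1 (h ▸ hc)⟩
  refine ⟨C, fun s hs hs2 ↦ ?_⟩
  have h := (hC s hs hs2).2
  simpa [Subgroup.mem_bot, Finset.sum_ite_eq'] using h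

end Fermat.Agent.LT.Density
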