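import Fermat.Agent.S14.Analytic.Euler
import Fermat.Agent.S14.Cross.Transfer

/-!
# Ray class `L`-series are bounded near `s = 1`

For a multiplicative function `ψ` on nonzero ideals, periodic modulo `m` on principal ones and
not equal to one at some ideal prime to `m`, the series `∑ ψ(I) N(I) ^ (-s)` is bounded, hence
`∑_P Re ψ(P) N(P) ^ (-s)` is bounded above.
-/

set_option autoImplicit false
set_option linter.unusedSectionVars false

noncomputable section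

namespace Fermat.Agent.LT.Density

open NumberField IsDedekindDomain Filter Topology Module
open Fermat.Agent.S14
open scoped nonZeroDivisors Classical

variable {K : Type} [Field K] [NumberField K]

/-- A principal ideal as a nonzero ideal. -/
def spanIdeal (x : 𝓞 K) (hx : x ≠ 0) : (Ideal (𝓞 K))⁰ :=
  ⟨Ideal.span {x}, mem_nonZeroDivisors_of_ne_zero (Ideal.span_singleton_eq_bot.not.mpr hx)⟩

lemma spanIdeal_mul {x y : 𝓞 K} (hx : x ≠ 0) (hy : y ≠ 0) :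
    spanIdeal (x * y) (mul_ne_zero hx hy) = spanIdeal x hx * spanIdeal y hy :=
  Subtype.ext (Ideal.span_singleton_mul_span_singleton x y).symm

/-- A ray class character modulo `m`, extended by zero. -/
structure IsRayChar (m : 𝓞 K) (ψ : (Ideal (𝓞 K))⁰ →* ℂ) : Prop where
  norm_le : ∀ I, ‖ψ I‖ ≤ 1
  eq_zero : ∀ P : HeightOneSpectrum (𝓞 K), m ∈ P.asIdeal → ψ (primeIdeal P) = 0
  ne_zero : ∀ I : (Ideal (𝓞 K))⁰, IsCoprime (I : Ideal (𝓞 K)) (Ideal.span {m}) → ψ I ≠ 0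
  periodic : ∀ (x y : 𝓞 K) (hx : x ≠ 0) (hy : y ≠ 0), x - y ∈ Ideal.span {m} →
    ψ (spanIdeal x hx) = ψ (spanIdeal y hy)

namespace IsRayChar

variable {m : 𝓞 K} {ψ : (Ideal (𝓞 K))⁰ →* ℂ}

lemma eq_zero_of_not_isCoprime (h : IsRayChar m ψ) {I : (Ideal (𝓞 K))⁰}
    (hI : ¬ IsCoprime (I : Ideal (𝓞 K)) (Ideal.span {m})) : ψ I = 0 := by
  rw [Ideal.isCoprime_iff_sup_eq] at hI
  obtain ⟨M, hM, hle⟩ := Ideal.exists_le_maximal _ hI
  have hM0 : M ≠ ⊥ := fun h0 => nonZeroDivisors.coe_ne_zero I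
    (le_bot_iff.mp (h0 ▸ le_sup_left.trans hle))
  set P : HeightOneSpectrum (𝓞 K) := ⟨M, hM.isPrime, hM0⟩
  obtain ⟨J, hJ⟩ : M ∣ (I : Ideal (𝓞 K)) := Ideal.dvd_iff_le.mpr (le_sup_left.trans hle)
  have hJ0 : J ≠ 0 := fun h0 => nonZeroDivisors.coe_ne_zero I (by rw [hJ, h0, mul_zero])
  have hIe : I = primeIdeal P * ⟨J, mem_nonZeroDivisors_of_ne_zero hJ0⟩ := Subtype.ext hJ
  rw [hIe, map_mul, h.eq_zero P (hle (le_sup_right (a := (I : Ideal (𝓞 K)))
    (Ideal.mem_span_singleton_self m))), zero_mul]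

/-- The residue function. -/
def resFun (hm : m ≠ 0) (ψ : (Ideal (𝓞 K))⁰ →* ℂ) (q : 𝓞 K ⧸ Ideal.span {m}) : ℂ :=
  if hq : q.out = 0 then ψ (spanIdeal m hm) else ψ (spanIdeal q.out hq)

lemma resFun_mk (h : IsRayChar m ψ) (hm : m ≠ 0) {x : 𝓞 K} (hx : x ≠ 0) :
    resFun hm ψ (Ideal.Quotient.mk _ x) = ψ (spanIdeal x hx) := by
  set q := Ideal.Quotient.mk (Ideal.span {m}) x
  have hq : q.out - x ∈ Ideal.span {m} := Ideal.Quotient.eq.mp (Ideal.Quotient.mk_out q)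
  rw [resFun]
  split_ifs with h0
  · rw [h0, zero_sub, Ideal.neg_mem_iff] at hq
    exact h.periodic _ _ hm hx (by simpa using sub_mem (Ideal.mem_span_singleton_self m) hq)
  · exact h.periodic _ _ h0 hx hq

lemma norm_resFun_le (h : IsRayChar m ψ) (hm : m ≠ 0) (q : 𝓞 K ⧸ Ideal.span {m}) :
    ‖resFun hm ψ q‖ ≤ 1 := by
  rw [resFun]
  split_ifs <;> exact h.norm_le _

end IsRayChar

open IsRayChar

/-- The part of the series in one ideal class. -/
def classRay (ψ : (Ideal (𝓞 K))⁰ →* ℂ) (c : ClassGroup (𝓞 K)) (s : ℝ) : ℂ :=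
  ∑' I : {I : (Ideal (𝓞 K))⁰ // ClassGroup.mk0 I = c},
    ψ I.1 * (((Ideal.absNorm (I.1 : Ideal (𝓞 K)) : ℝ) ^ (-s) : ℝ) : ℂ)

variable {m : 𝓞 K} {ψ : (Ideal (𝓞 K))⁰ →* ℂ}

lemma norm_rayTerm_le (h : IsRayChar m ψ) (s : ℝ) (I : (Ideal (𝓞 K))⁰) :
    ‖ψ I * (((Ideal.absNorm (I : Ideal (𝓞 K)) : ℝ) ^ (-s) : ℝ) : ℂ)‖ ≤
      (Ideal.absNorm (I : Ideal (𝓞 K)) : ℝ) ^ (-s) := by
  rw [norm_mul, Complex.norm_real, Real.norm_of_nonneg (Real.rpow_nonneg (Nat.cast_nonneg _) _)]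
  exact mul_le_of_le_one_left (Real.rpow_nonneg (Nat.cast_nonneg _) _) (h.norm_le I)

/-- Lattice points of `a` weighted by the residue function. -/
lemma tsum_resFun_eq (h : IsRayChar m ψ) (hm : m ≠ 0) (a : (Ideal (𝓞 K))⁰) {s : ℝ} (hs : 1 < s) :
    ∑' y : (a : Ideal (𝓞 K)), (intTerm s (y : 𝓞 K) : ℂ) *
        resFun hm ψ (Ideal.Quotient.mk _ (y : 𝓞 K)) =
      (Units.torsionOrder K : ℂ) *
        (((Ideal.absNorm (a : Ideal (𝓞 K)) : ℝ) ^ (-s) : ℝ) : ℂ) * ψ a *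
        classRay ψ (ClassGroup.mk0 a)⁻¹ s := by
  set ι := {I : (Ideal (𝓞 K))⁰ // ClassGroup.mk0 I = (ClassGroup.mk0 a)⁻¹}
  obtain ⟨gen, hgen, hne, hinj, hmem, hsurj⟩ := exists_generators a
  set N : ℝ := (Ideal.absNorm (a : Ideal (𝓞 K)) : ℝ)
  let f : ↥(a : Ideal (𝓞 K)) → ℂ := fun y => (intTerm s (y : 𝓞 K) : ℂ) *
    resFun hm ψ (Ideal.Quotient.mk _ (y : 𝓞 K))
  have hS : Summable f := Summable.of_norm_bounded
    ((summable_intTerm hs).comp_injective Subtype.val_injective) fun y => by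
      simp only [f, norm_mul, Complex.norm_real, Real.norm_of_nonneg (intTerm_nonneg s _)]
      exact mul_le_of_le_one_right (intTerm_nonneg s _) (h.norm_resFun_le hm _)
  have hval : ∀ z : ι × (𝓞 K)ˣ, f ⟨(z.2 : 𝓞 K) * gen z.1, hmem z.1 z.2⟩ =
      (cutoff (z.2 • intEmb (gen z.1)) : ℂ) *
        ((((N ^ (-s) : ℝ)) : ℂ) * (((Ideal.absNorm (z.1.1 : Ideal (𝓞 K)) : ℝ) ^ (-s) : ℝ) : ℂ) *
          (ψ a * ψ z.1.1)) := fun z => by
    have hx : (z.2 : 𝓞 K) * gen z.1 ≠ 0 := mul_ne_zero z.2.ne_zero (hne _)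
    have hsp : spanIdeal _ hx = a * z.1.1 := Subtype.ext (by
      show Ideal.span {(z.2 : 𝓞 K) * gen z.1} = _
      rw [Ideal.span_singleton_mul_left_unit z.2.isUnit, hgen, Submonoid.coe_mul])
    simp only [f]
    rw [h.resFun_mk hm hx, hsp, map_mul ψ, intTerm, coneTerm, norm_intEmb,
      Ideal.span_singleton_mul_left_unit z.2.isUnit, hgen,
      map_mul, Nat.cast_mul, Real.mul_rpow (Nat.cast_nonneg _) (Nat.cast_nonneg _), intEmb_unit_mul]
    push_cast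
    ring
  let φ : ι × (𝓞 K)ˣ → ↥(a : Ideal (𝓞 K)) := fun z => ⟨(z.2 : 𝓞 K) * gen z.1, hmem z.1 z.2⟩
  have hφi : Function.Injective φ := fun z z' h' => hinj (congrArg Subtype.val h')
  have hrange : ∀ y : (a : Ideal (𝓞 K)), y ∉ Set.range φ → f y = 0 := by
    intro y hy
    by_cases h0 : (y : 𝓞 K) = 0
    · simp only [f]
      rw [h0, intTerm, intEmb_zero, coneTerm_zero, Complex.ofReal_zero, zero_mul]
    obtain ⟨I, u, hu⟩ := hsurj (y : 𝓞 K) y.2 h0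
    exact absurd ⟨(I, u), Subtype.ext hu⟩ hy
  have hφ := (hφi.hasSum_iff hrange).mpr hS.hasSum
  have hfib : ∀ I : ι, HasSum (fun u : (𝓞 K)ˣ => f (φ (I, u)))
      ((Units.torsionOrder K : ℂ) * ((((N ^ (-s) : ℝ)) : ℂ) *
        (((Ideal.absNorm (I.1 : Ideal (𝓞 K)) : ℝ) ^ (-s) : ℝ) : ℂ) * (ψ a * ψ I.1))) := by
    intro I
    have h0 : mixedEmbedding.norm (intEmb (gen I)) ≠ 0 := by
      rw [norm_intEmb, Nat.cast_ne_zero]
      exact fun h => hne I (Ideal.span_singleton_eq_bot.mp (Ideal.absNorm_eq_zero_iff.mp h))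
    have h1 := Complex.hasSum_ofReal.mpr (hasSum_cutoff_unit_smul h0)
    rw [Complex.ofReal_natCast] at h1
    exact (h1.mul_right _).congr_fun fun u => hval (I, u)
  have h2 := hφ.prod_fiberwise hfib
  rw [show (∑' y : (a : Ideal (𝓞 K)), (intTerm s (y : 𝓞 K) : ℂ) *
        resFun hm ψ (Ideal.Quotient.mk _ (y : 𝓞 K))) = ∑' y, f y from rfl, ← h2.tsum_eq,
    classRay, ← tsum_mul_left]
  exact tsum_congr fun I => by ring

/-- The same sum is a multiple of the sum over `a ∩ (m)`, up to `O(1)`. -/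
lemma exists_norm_resSum_sub_le (h : IsRayChar m ψ) (hm : m ≠ 0) (a : (Ideal (𝓞 K))⁰)
    (ha : IsCoprime (a : Ideal (𝓞 K)) (Ideal.span {m})) [Fintype (𝓞 K ⧸ Ideal.span {m})] :
    ∃ C : ℝ, ∀ s : ℝ, 1 < s → s ≤ 2 →
      ‖(∑' y : (a : Ideal (𝓞 K)), (intTerm s (y : 𝓞 K) : ℂ) *
          resFun hm ψ (Ideal.Quotient.mk _ (y : 𝓞 K))) -
        (∑ q, resFun hm ψ q) *
          ((∑' z : ((a : Ideal (𝓞 K)) * Ideal.span {m} : Ideal (𝓞 K)), intTerm s (z : 𝓞 K) : ℝ) : ℂ)‖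
        ≤ C := by
  set b : Ideal (𝓞 K) := (a : Ideal (𝓞 K)) * Ideal.span {m}
  have hinf : b = (a : Ideal (𝓞 K)) ⊓ Ideal.span {m} := Ideal.mul_eq_inf_of_coprime
    (Ideal.isCoprime_iff_sup_eq.mp ha)
  let φ : ↥(a : Ideal (𝓞 K)) → 𝓞 K ⧸ Ideal.span {m} := fun y => Ideal.Quotient.mk _ (y : 𝓞 K)
  have hsur : ∀ q, ∃ t : (a : Ideal (𝓞 K)), φ t = q := by
    intro q
    obtain ⟨x, rfl⟩ := Ideal.Quotient.mk_surjective q
    obtain ⟨u, hu, v, hv, huv⟩ := Ideal.isCoprime_iff_exists.mp ha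
    refine ⟨⟨x * u, Ideal.mul_mem_left _ x hu⟩, Ideal.Quotient.eq.mpr ?_⟩
    show x * u - x ∈ _
    rw [show x * u - x = -(x * v) by linear_combination x * huv]
    exact neg_mem (Ideal.mul_mem_left _ x hv)
  choose t ht using hsur
  let e : ∀ q, b ≃ {y : (a : Ideal (𝓞 K)) // φ y = q} := fun q =>
    { toFun := fun z => ⟨⟨(t q : 𝓞 K) + (z : 𝓞 K), add_mem (t q).2 (hinf ▸ z.2 : (z : 𝓞 K) ∈
          (a : Ideal (𝓞 K)) ⊓ Ideal.span {m}).1⟩, by
        conv_rhs => rw [← ht q]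
        exact Ideal.Quotient.eq.mpr (by
          simpa using (hinf ▸ z.2 : (z : 𝓞 K) ∈ (a : Ideal (𝓞 K)) ⊓ Ideal.span {m}).2)⟩
      invFun := fun y => ⟨(y.1 : 𝓞 K) - (t q : 𝓞 K), by
        rw [hinf]
        exact ⟨sub_mem y.1.2 (t q).2, Ideal.Quotient.eq.mp (y.2.trans (ht q).symm)⟩⟩
      left_inv := fun z => Subtype.ext (add_sub_cancel_left _ _)
      right_inv := fun y => Subtype.ext (Subtype.ext (add_sub_cancel _ _)) }
  choose C hC using fun q => exists_abs_translate_le b (t q : 𝓞 K)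
  refine ⟨∑ q, C q, fun s hs hs2 => ?_⟩
  set f : ↥(a : Ideal (𝓞 K)) → ℂ := fun y =>
    (intTerm s (y : 𝓞 K) : ℂ) * resFun hm ψ (φ y)
  have hS : Summable f := Summable.of_norm_bounded
    ((summable_intTerm hs).comp_injective Subtype.val_injective) fun y => by
      simp only [f, norm_mul, Complex.norm_real, Real.norm_of_nonneg (intTerm_nonneg s _)]
      exact mul_le_of_le_one_right (intTerm_nonneg s _) (h.norm_resFun_le hm _)
  have hfib : ∀ q, ∑' y : {y : (a : Ideal (𝓞 K)) // φ y = q}, f y.1 =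
      resFun hm ψ q * ((∑' z : b, intTerm s ((t q : 𝓞 K) + (z : 𝓞 K)) : ℝ) : ℂ) := fun q => by
    rw [← (e q).tsum_eq, Complex.ofReal_tsum, ← tsum_mul_left]
    exact tsum_congr fun z => by
      simp only [f, show φ (e q z).1 = q from (e q z).2]
      rw [mul_comm]
      rfl
  have htot : ∑' y, f y = ∑ q, resFun hm ψ q *
      ((∑' z : b, intTerm s ((t q : 𝓞 K) + (z : 𝓞 K)) : ℝ) : ℂ) := by
    have h1 := (Equiv.sigmaFiberEquiv φ).summable_iff.mpr hS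
    rw [← (Equiv.sigmaFiberEquiv φ).tsum_eq f]
    refine h1.tsum_sigma.trans ?_
    rw [tsum_fintype]
    exact Finset.sum_congr rfl fun q _ => hfib q
  change ‖(∑' y, f y) - _‖ ≤ _
  rw [htot, Finset.sum_mul, ← Finset.sum_sub_distrib]
  refine (norm_sum_le _ _).trans (Finset.sum_le_sum fun q _ => ?_)
  rw [← mul_sub, ← Complex.ofReal_sub, norm_mul, Complex.norm_real, Real.norm_eq_abs]
  exact (mul_le_of_le_one_left (abs_nonneg _) (h.norm_resFun_le hm q)).trans (hC q s hs hs2)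

/-- Each class contributes a multiple of the weighted sum over all integers, up to `O(1)`. -/
lemma exists_norm_classRay_sub_le (h : IsRayChar m ψ) (hm : m ≠ 0) (a : (Ideal (𝓞 K))⁰)
    (ha : IsCoprime (a : Ideal (𝓞 K)) (Ideal.span {m})) [Fintype (𝓞 K ⧸ Ideal.span {m})] :
    ∃ C : ℝ, ∀ s : ℝ, 1 < s → s ≤ 2 →
      ‖classRay ψ (ClassGroup.mk0 a)⁻¹ s -
        (∑ q, resFun hm ψ q) / ((Units.torsionOrder K : ℂ) *
            (Ideal.absNorm (Ideal.span {m} : Ideal (𝓞 K)) : ℂ)) * (ψ a)⁻¹ *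
          ((∑' x : 𝓞 K, intTerm s x : ℝ) : ℂ)‖ ≤ C := by
  set n : ℝ := (Ideal.absNorm (a : Ideal (𝓞 K)) : ℝ)
  set μ : ℝ := (Ideal.absNorm (Ideal.span {m} : Ideal (𝓞 K)) : ℝ)
  set G₀ : ℂ := ∑ q, resFun hm ψ q
  set w : ℝ := (Units.torsionOrder K : ℝ)
  have hn : 1 ≤ n := one_le_absNorm a
  have hμ : 1 ≤ μ := one_le_absNorm (spanIdeal m hm)
  have hw : 1 ≤ w := Nat.one_le_cast.mpr (Units.torsionOrder_pos K)
  obtain ⟨C₁, h₁⟩ := exists_norm_resSum_sub_le h hm a ha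
  obtain ⟨C₂, h₂⟩ := exists_abs_tsum_sub_le ((a : Ideal (𝓞 K)) * Ideal.span {m})
    (mul_ne_zero (nonZeroDivisors.coe_ne_zero a) (Ideal.span_singleton_eq_bot.not.mpr hm))
  obtain ⟨C₄, h₄⟩ := exists_abs_tsum_sub_le ((1 : (Ideal (𝓞 K))⁰) : Ideal (𝓞 K))
    (nonZeroDivisors.coe_ne_zero _)
  obtain ⟨_, C₃, -, h₃⟩ := exists_idealZeta_bounds (K := K)
  have hψ := h.ne_zero a ha
  set D : ℝ := ‖G₀‖ / (n * μ) * C₂ + C₁
  set E : ℝ := (w * C₃ + |C₄|) * n * Real.log n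
  refine ⟨(n ^ (2 : ℝ) / (w * ‖ψ a‖)) * D + ‖G₀‖ / (w * μ * ‖ψ a‖) * E, fun s hs hs2 => ?_⟩
  set S : ℝ := ∑' x : 𝓞 K, intTerm s x
  set Z : ℝ := ∑' z : ((a : Ideal (𝓞 K)) * Ideal.span {m} : Ideal (𝓞 K)), intTerm s (z : 𝓞 K)
  set L := classRay ψ (ClassGroup.mk0 a)⁻¹ s
  have e1 := h₁ s hs hs2
  rw [tsum_resFun_eq h hm a hs] at e1
  have e2 := h₂ s hs hs2
  rw [map_mul, Nat.cast_mul] at e2
  change |S - n * μ * Z| ≤ C₂ at e2
  set X : ℂ := (w : ℂ) * ((n ^ (-s) : ℝ) : ℂ) * ψ a * L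
  have e1' : ‖X - G₀ * (Z : ℂ)‖ ≤ C₁ := by
    simpa only [X, w, Complex.ofReal_natCast] using e1
  have hX : ‖X - G₀ * ((S / (n * μ) : ℝ) : ℂ)‖ ≤ D := by
    have hZ : ‖G₀ * (Z : ℂ) - G₀ * ((S / (n * μ) : ℝ) : ℂ)‖ ≤ ‖G₀‖ / (n * μ) * C₂ := by
      rw [← mul_sub, ← Complex.ofReal_sub, norm_mul, Complex.norm_real, Real.norm_eq_abs,
        show Z - S / (n * μ) = -(S - n * μ * Z) / (n * μ) by field_simp; ring, abs_div, abs_neg,
        abs_of_pos (show 0 < n * μ by positivity), div_mul_eq_mul_div, ← mul_div_assoc]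
      gcongr
    calc ‖X - G₀ * ((S / (n * μ) : ℝ) : ℂ)‖
        = ‖(X - G₀ * (Z : ℂ)) + (G₀ * (Z : ℂ) - G₀ * ((S / (n * μ) : ℝ) : ℂ))‖ := by ring_nf
      _ ≤ C₁ + ‖G₀‖ / (n * μ) * C₂ := (norm_add_le _ _).trans (add_le_add e1' hZ)
      _ = D := by ring
  have hlast : |(n ^ (s - 1) - 1) * S| ≤ E := by
    have e4 := h₄ s hs hs2
    rw [(hasSum_classZeta 1 hs).2, map_one, inv_one] at e4
    simp only [OneMemClass.coe_one, map_one, Nat.cast_one, Real.one_rpow, mul_one, one_mul] at e4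
    change |S - w * classZeta (1 : ClassGroup (𝓞 K)) s| ≤ C₄ at e4
    have hS0 : 0 ≤ S := tsum_nonneg (intTerm_nonneg s)
    have hS : (s - 1) * S ≤ w * C₃ + |C₄| := by
      have h5 : (s - 1) * classZeta (1 : ClassGroup (𝓞 K)) s ≤ C₃ :=
        le_trans (mul_le_mul_of_nonneg_left (classZeta_le_idealZeta _ hs) (by linarith))
          (h₃ s hs hs2).2
      have := (abs_le.mp e4).2
      nlinarith [le_abs_self C₄, abs_nonneg C₄]
    have hp1 : 1 ≤ n ^ (s - 1) := Real.one_le_rpow hn (by linarith)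
    have hp2 : n ^ (s - 1) ≤ n := by
      conv_rhs => rw [← Real.rpow_one n]
      exact Real.rpow_le_rpow_of_exponent_le hn (by linarith)
    have h1 : n ^ (s - 1) - 1 ≤ n * ((s - 1) * Real.log n) := by
      have h := Real.add_one_le_exp (-(Real.log n * (s - 1)))
      rw [Real.exp_neg, ← Real.rpow_def_of_pos (by linarith)] at h
      have h' : (1 - Real.log n * (s - 1)) * n ^ (s - 1) ≤ 1 := by
        rw [← le_div_iff₀ (by linarith), one_div]
        linarith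
      nlinarith [mul_nonneg (mul_nonneg (sub_nonneg.mpr hp2) (Real.log_nonneg hn))
        (sub_nonneg.mpr hs.le)]
    rw [abs_of_nonneg (mul_nonneg (by linarith) hS0)]
    calc (n ^ (s - 1) - 1) * S ≤ n * ((s - 1) * Real.log n) * S :=
          mul_le_mul_of_nonneg_right h1 hS0
      _ = ((s - 1) * S) * (n * Real.log n) := by ring
      _ ≤ (w * C₃ + |C₄|) * (n * Real.log n) :=
          mul_le_mul_of_nonneg_right hS (mul_nonneg (by linarith) (Real.log_nonneg hn))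
      _ = E := by ring
  have hns : n ^ (-s) * n ^ s = 1 := by
    rw [← Real.rpow_add (by linarith), neg_add_cancel, Real.rpow_zero]
  have hn1 : n ^ s = n * n ^ (s - 1) := by
    rw [Real.rpow_sub_one (by linarith), mul_div_cancel₀ _ (by linarith)]
  have key : L - G₀ / ((w : ℂ) * (μ : ℂ)) * (ψ a)⁻¹ * (S : ℂ) =
      ((n ^ s : ℝ) : ℂ) / ((w : ℂ) * ψ a) * (X - G₀ * ((S / (n * μ) : ℝ) : ℂ)) +
        G₀ / ((w : ℂ) * (μ : ℂ) * ψ a) * (((n ^ (s - 1) - 1) * S : ℝ) : ℂ) := by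
    have hw0 : (w : ℂ) ≠ 0 := by exact_mod_cast (show w ≠ 0 by linarith)
    have hμ0 : (μ : ℂ) ≠ 0 := by exact_mod_cast (show μ ≠ 0 by linarith)
    have hn0 : (n : ℂ) ≠ 0 := by exact_mod_cast (show n ≠ 0 by linarith)
    have e5 : ((n ^ (-s) : ℝ) : ℂ) * ((n ^ s : ℝ) : ℂ) = 1 := by
      rw [← Complex.ofReal_mul, hns, Complex.ofReal_one]
    have e6 : ((n ^ s : ℝ) : ℂ) = (n : ℂ) * ((n ^ (s - 1) : ℝ) : ℂ) := by
      rw [← Complex.ofReal_mul, hn1]
    simp only [X, Complex.ofReal_div, Complex.ofReal_mul, Complex.ofReal_sub, Complex.ofReal_one]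
    field_simp
    linear_combination (-(w : ℂ) * (μ : ℂ) * (n : ℂ) * L * ψ a) * e5 + (G₀ * (S : ℂ)) * e6
  change ‖L - G₀ / ((Units.torsionOrder K : ℂ) *
    (Ideal.absNorm (Ideal.span {m} : Ideal (𝓞 K)) : ℂ)) * (ψ a)⁻¹ * (S : ℂ)‖ ≤ _
  rw [show (Units.torsionOrder K : ℂ) = (w : ℂ) from (Complex.ofReal_natCast _).symm,
    show (Ideal.absNorm (Ideal.span {m} : Ideal (𝓞 K)) : ℂ) = (μ : ℂ) from
      (Complex.ofReal_natCast _).symm, key]
  have hw' : ‖(w : ℂ)‖ = w := by rw [Complex.norm_real, Real.norm_of_nonneg (by linarith)]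
  have hμ' : ‖(μ : ℂ)‖ = μ := by rw [Complex.norm_real, Real.norm_of_nonneg (by linarith)]
  have hns' : ‖((n ^ s : ℝ) : ℂ)‖ ≤ n ^ (2 : ℝ) := by
    rw [Complex.norm_real, Real.norm_of_nonneg (Real.rpow_nonneg (by linarith) _)]
    exact Real.rpow_le_rpow_of_exponent_le hn hs2
  refine (norm_add_le _ _).trans (add_le_add ?_ ?_)
  · rw [norm_mul, norm_div, norm_mul, hw']
    exact mul_le_mul (by gcongr) hX (norm_nonneg _) (by positivity)
  · rw [norm_mul, norm_div, norm_mul, norm_mul, hw', hμ', Complex.norm_real, Real.norm_eq_abs]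
    exact mul_le_mul_of_nonneg_left hlast (by positivity)

/-- A nontrivial ray class `L`-series is bounded on `1 < s ≤ 2`. -/
theorem exists_norm_raySeries_le (h : IsRayChar m ψ) (hm : m ≠ 0)
    (hne : ∃ I, ψ I ≠ 0 ∧ ψ I ≠ 1) :
    ∃ C : ℝ, ∀ s : ℝ, 1 < s → s ≤ 2 →
      ‖∑' I : (Ideal (𝓞 K))⁰,
        ψ I * (((Ideal.absNorm (I : Ideal (𝓞 K)) : ℝ) ^ (-s) : ℝ) : ℂ)‖ ≤ C := by
  have hmI : Ideal.span {m} ≠ (⊥ : Ideal (𝓞 K)) := Ideal.span_singleton_eq_bot.not.mpr hm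
  have : Finite (𝓞 K ⧸ Ideal.span {m}) := Ring.HasFiniteQuotients.finiteQuotient hmI
  have := Fintype.ofFinite (𝓞 K ⧸ Ideal.span {m})
  set N₀ : ℕ := Ideal.absNorm (Ideal.span {m} : Ideal (𝓞 K))
  have hrep : ∀ c : ClassGroup (𝓞 K), ∃ a : (Ideal (𝓞 K))⁰, ClassGroup.mk0 a = c⁻¹ ∧
      IsCoprime (a : Ideal (𝓞 K)) (Ideal.span {m}) := by
    intro c
    obtain ⟨a, ha, hgood⟩ := DegOne.exists_mk0_eq_forall_isGood (K := K) N₀ c⁻¹
    refine ⟨a, ha, ?_⟩
    rw [Ideal.isCoprime_iff_sup_eq]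
    by_contra hne
    obtain ⟨M, hM, hle⟩ := Ideal.exists_le_maximal _ hne
    have hgood' := (hgood M hM.isPrime (Ideal.dvd_iff_le.mpr (le_sup_left.trans hle))).2
    exact not_lt.mpr (Nat.le_of_dvd (Nat.pos_of_ne_zero (mt Ideal.absNorm_eq_zero_iff.mp hmI))
      (Ideal.absNorm_dvd_absNorm_of_le (le_sup_right.trans hle))) hgood'
  choose a ha hac using hrep
  set G₀ : ℂ := ∑ q, resFun hm ψ q
  have hzero : G₀ * ∑ c, (ψ (a c))⁻¹ = 0 := by
    obtain ⟨I, hI0, hI1⟩ := hne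
    by_cases hprin : ∃ (x : 𝓞 K) (hx : x ≠ 0), ψ (spanIdeal x hx) ≠ 0 ∧ ψ (spanIdeal x hx) ≠ 1
    · obtain ⟨x, hx, hx0, hx1⟩ := hprin
      have hcop : IsCoprime (Ideal.span {x}) (Ideal.span {m}) := by
        by_contra hc
        exact hx0 (h.eq_zero_of_not_isCoprime (I := spanIdeal x hx) hc)
      obtain ⟨u, hu, v, hv, huv⟩ := Ideal.isCoprime_iff_exists.mp hcop
      obtain ⟨z, rfl⟩ := Ideal.mem_span_singleton'.mp hu
      have hunit : IsUnit (Ideal.Quotient.mk (Ideal.span {m}) x) := by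
        refine IsUnit.of_mul_eq_one (Ideal.Quotient.mk _ z) ?_
        rw [← map_mul, ← map_one (Ideal.Quotient.mk (Ideal.span {m})), Ideal.Quotient.eq]
        rw [show x * z - 1 = -v by linear_combination huv]
        exact neg_mem hv
      have hmul : ∀ q, resFun hm ψ (Ideal.Quotient.mk _ x * q) =
          ψ (spanIdeal x hx) * resFun hm ψ q := by
        intro q
        obtain ⟨y, hy, rfl⟩ : ∃ y : 𝓞 K, y ≠ 0 ∧ Ideal.Quotient.mk _ y = q := by
          obtain ⟨y, rfl⟩ := Ideal.Quotient.mk_surjective q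
          by_cases hy : y = 0
          · exact ⟨m, hm, by rw [hy, map_zero,
              Ideal.Quotient.eq_zero_iff_mem.mpr (Ideal.mem_span_singleton_self m)]⟩
          · exact ⟨y, hy, rfl⟩
        rw [← map_mul, h.resFun_mk hm (mul_ne_zero hx hy), h.resFun_mk hm hy, spanIdeal_mul hx hy,
          map_mul]
      have : ψ (spanIdeal x hx) * G₀ = G₀ := by
        rw [Finset.mul_sum]
        simp only [← hmul]
        exact Equiv.sum_comp (Units.mulLeft hunit.unit) (resFun hm ψ)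
      have : G₀ = 0 := by
        by_contra hG
        exact hx1 (mul_right_cancel₀ hG (this.trans (one_mul G₀).symm))
      rw [this, zero_mul]
    · push Not at hprin
      have hone : ∀ J : (Ideal (𝓞 K))⁰, ClassGroup.mk0 J = 1 → ψ J ≠ 0 → ψ J = 1 := by
        intro J hJ hJ0
        obtain ⟨x, hx⟩ := (ClassGroup.mk0_eq_one_iff J.2).mp hJ
        have hx0 : x ≠ 0 := by
          rintro rfl
          exact nonZeroDivisors.coe_ne_zero J (hx.trans (Ideal.span_singleton_eq_bot.mpr rfl))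
        have he : J = spanIdeal x hx0 := Subtype.ext hx
        rw [he] at hJ0 ⊢
        exact hprin x hx0 hJ0
      have hsumz : ∑ c, (ψ (a c))⁻¹ = 0 := by
        set c₀ := ClassGroup.mk0 I
        have hshift : ∀ c, ψ (a (c * c₀⁻¹)) = ψ (a c) * ψ I := by
          intro c
          obtain ⟨b, hb, hbc⟩ : ∃ b : (Ideal (𝓞 K))⁰,
              ClassGroup.mk0 b = c * c₀⁻¹ ∧ ψ b ≠ 0 :=
            ⟨a (c * c₀⁻¹)⁻¹, by rw [ha, inv_inv], h.ne_zero _ (hac _)⟩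
          have e1 := hone (a c * I * b) (by rw [map_mul, map_mul, ha, hb, mul_mul_mul_comm, inv_mul_cancel, mul_inv_cancel, one_mul])
            (by rw [map_mul, map_mul]; exact mul_ne_zero (mul_ne_zero (h.ne_zero _ (hac _)) hI0) hbc)
          have e2 := hone (a (c * c₀⁻¹) * b) (by rw [map_mul, ha, hb, inv_mul_cancel])
            (by rw [map_mul]; exact mul_ne_zero (h.ne_zero _ (hac _)) hbc)
          rw [map_mul, map_mul] at e1
          rw [map_mul] at e2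
          exact mul_right_cancel₀ hbc (e2.trans e1.symm)
        have h2 : ∑ c, (ψ (a c))⁻¹ = (∑ c, (ψ (a c))⁻¹) * (ψ I)⁻¹ := by
          conv_lhs => rw [← Equiv.sum_comp (Equiv.mulRight c₀⁻¹)]
          simp only [Equiv.coe_mulRight, hshift, mul_inv, Finset.sum_mul]
        have h3 : (∑ c, (ψ (a c))⁻¹) * ((ψ I)⁻¹ - 1) = 0 := by
          rw [mul_sub, mul_one, ← h2, sub_self]
        exact (mul_eq_zero.mp h3).resolve_right (sub_ne_zero.mpr (by simpa using hI1))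
      rw [hsumz, mul_zero]
  choose C hC using fun c => exists_norm_classRay_sub_le h hm (a c) (hac c)
  refine ⟨∑ c, C c, fun s hs hs2 => ?_⟩
  have hsum : Summable fun I : (Ideal (𝓞 K))⁰ =>
      ψ I * (((Ideal.absNorm (I : Ideal (𝓞 K)) : ℝ) ^ (-s) : ℝ) : ℂ) :=
    Summable.of_norm_bounded (summable_idealZeta hs) (norm_rayTerm_le h s)
  have he := (Equiv.sigmaFiberEquiv (ClassGroup.mk0 (R := 𝓞 K))).summable_iff.mpr hsum
  rw [← (Equiv.sigmaFiberEquiv (ClassGroup.mk0 (R := 𝓞 K))).tsum_eq]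
  refine le_of_eq_of_le (congrArg norm (he.tsum_sigma.trans (tsum_fintype _))) ?_
  set W : ℂ := (Units.torsionOrder K : ℂ) * (Ideal.absNorm (Ideal.span {m} : Ideal (𝓞 K)) : ℂ)
  set S : ℝ := ∑' x : 𝓞 K, intTerm s x
  have hfix : ∑ c, classRay ψ c s = ∑ c, (classRay ψ (ClassGroup.mk0 (a c))⁻¹ s -
      G₀ / W * (ψ (a c))⁻¹ * (S : ℂ)) := by
    have h0 : ∑ c, G₀ / W * (ψ (a c))⁻¹ * (S : ℂ) = 0 := by
      rw [← Finset.sum_mul, ← Finset.mul_sum, div_mul_eq_mul_div, hzero, zero_div, zero_mul]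
    rw [Finset.sum_sub_distrib, h0, sub_zero]
    exact Finset.sum_congr rfl fun c _ => by rw [ha, inv_inv]
  change ‖∑ c, classRay ψ c s‖ ≤ _
  rw [hfix]
  exact (norm_sum_le _ _).trans (Finset.sum_le_sum fun c _ => hC c s hs hs2)

/-- A nontrivial ray class character sum over primes is bounded above. -/
theorem exists_rayPrimeSum_le (h : IsRayChar m ψ) (hm : m ≠ 0) (hne : ∃ I, ψ I ≠ 0 ∧ ψ I ≠ 1) :
    ∃ C : ℝ, ∀ s : ℝ, 1 < s → s ≤ 2 →
      ∑' P : HeightOneSpectrum (𝓞 K), (ψ (primeIdeal P)).re * primeNorm P ^ (-s) ≤ C := by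
  obtain ⟨C₁, h₁⟩ := exists_norm_raySeries_le h hm hne
  refine ⟨C₁ + ∑' P : HeightOneSpectrum (𝓞 K), primeNorm P ^ (-(2 : ℝ)), fun s hs hs2 => ?_⟩
  let Fs : (Ideal (𝓞 K))⁰ →* ℂ :=
    { toFun := fun I => ψ I * (((Ideal.absNorm (I : Ideal (𝓞 K)) : ℝ) ^ (-s) : ℝ) : ℂ)
      map_one' := by simp
      map_mul' := fun I J => by
        simp only [map_mul, Submonoid.coe_mul, Nat.cast_mul,
          Real.mul_rpow (Nat.cast_nonneg _) (Nat.cast_nonneg _), Complex.ofReal_mul]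
        ring }
  have hFs : ∀ P, ‖Fs (primeIdeal P)‖ ≤ primeNorm P ^ (-s) := fun P => norm_rayTerm_le h s _
  have hre : ∀ P, (Fs (primeIdeal P)).re = (ψ (primeIdeal P)).re * primeNorm P ^ (-s) :=
    fun P => Complex.re_mul_ofReal _ _
  have hsum : Summable fun P : HeightOneSpectrum (𝓞 K) =>
      (ψ (primeIdeal P)).re * primeNorm P ^ (-s) :=
    Summable.of_norm_bounded (summable_primeNorm hs) fun P => by
      rw [← hre, Real.norm_eq_abs]
      exact (Complex.abs_re_le_norm _).trans (hFs P)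
  have htend := tendsto_euler_product Fs
    ((summable_idealZeta hs).of_nonneg_of_le (fun _ => norm_nonneg _) (norm_rayTerm_le h s))
    fun P => lt_of_le_of_lt (hFs P) (by linarith [primeNorm_rpow_le_half P hs])
  have hL : ‖∑' I, Fs I‖ ≤ C₁ := h₁ s hs hs2
  refine le_of_tendsto hsum.hasSum ?_
  filter_upwards [htend.norm.eventually
    (eventually_lt_nhds (show ‖∑' I, Fs I‖ < C₁ + 1 by linarith))] with T hT
  have hz : ∀ P, ‖Fs (primeIdeal P)‖ ≤ 1 / 2 := fun P =>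
    (hFs P).trans (primeNorm_rpow_le_half P hs)
  have hpos : ∀ P, 0 < ‖1 - Fs (primeIdeal P)‖ := fun P => by
    have := norm_sub_norm_le (1 : ℂ) (Fs (primeIdeal P))
    rw [norm_one] at this
    linarith [hz P]
  rw [norm_prod] at hT
  simp only [norm_inv] at hT
  have hp : 0 < ∏ P ∈ T, ‖1 - Fs (primeIdeal P)‖⁻¹ :=
    Finset.prod_pos fun P _ => inv_pos.mpr (hpos P)
  have hlog := Real.log_le_sub_one_of_pos hp
  rw [Real.log_prod fun P _ => (inv_pos.mpr (hpos P)).ne'] at hlog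
  have hle : ∑ P ∈ T, ((ψ (primeIdeal P)).re * primeNorm P ^ (-s)) ≤
      (∑ P ∈ T, Real.log ‖1 - Fs (primeIdeal P)‖⁻¹) + ∑ P ∈ T, primeNorm P ^ (-(2 : ℝ)) := by
    rw [← Finset.sum_add_distrib]
    refine Finset.sum_le_sum fun P _ => ?_
    have h1 := (abs_le.mp (abs_log_norm_one_sub_add_re_le (hz P))).2
    rw [hre] at h1
    rw [Real.log_inv]
    have h2 : ‖Fs (primeIdeal P)‖ ^ 2 ≤ primeNorm P ^ (-(2 : ℝ)) := by
      refine (pow_le_pow_left₀ (norm_nonneg _) (hFs P) 2).trans ?_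
      rw [← Real.rpow_natCast (primeNorm P ^ (-s)), ← Real.rpow_mul (primeNorm_pos P).le]
      exact Real.rpow_le_rpow_of_exponent_le (by linarith [two_le_primeNorm P])
        (by push_cast; linarith)
    linarith
  have h3 : ∑ P ∈ T, primeNorm P ^ (-(2 : ℝ)) ≤
      ∑' P : HeightOneSpectrum (𝓞 K), primeNorm P ^ (-(2 : ℝ)) :=
    (summable_primeNorm (by norm_num)).sum_le_tsum T fun P _ =>
      Real.rpow_nonneg (primeNorm_pos P).le _
  linarith

end Fermat.Agent.LT.Density
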